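import Mathlib

/-!
# Integrally closed domains over an algebraically closed field stay so under field extensions

Zero divisors are excluded by specialising the scalars (Nullstellensatz). For integral closedness
the extension is reduced to a finitely generated one, hence to a finite separable extension of a
purely transcendental one: polynomial rings, localisation and a trace argument.
-/

set_option autoImplicit false

noncomputable section

open scoped TensorProduct

namespace Fermat.Agent.AbVar

universe u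

section HClosed

/-- If `a / s` is integral, written without fractions, then `s` divides `a`. -/
def HClosed (R : Type*) [CommRing R] : Prop :=
  ∀ a s : R, s ≠ 0 → ∀ p : Polynomial R, p.Monic → (p.scaleRoots s).eval a = 0 → s ∣ a

variable {R : Type*} [CommRing R] [IsDomain R]

theorem hClosed_of_isIntegrallyClosed [IsIntegrallyClosed R] : HClosed R := by
  intro a s hs p hp h
  set f := algebraMap R (FractionRing R)
  have hfs : f s ≠ 0 := fun h0 => hs (IsFractionRing.injective R _ (h0.trans (map_zero f).symm))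
  have h1 : Polynomial.eval₂ f (f s * (f a / f s)) (p.scaleRoots s) = 0 := by
    rw [mul_div_cancel₀ _ hfs, Polynomial.eval₂_at_apply, h, map_zero]
  rw [Polynomial.scaleRoots_eval₂_mul, mul_eq_zero] at h1
  obtain ⟨y, hy⟩ := IsIntegrallyClosed.isIntegral_iff.mp
    (⟨p, hp, h1.resolve_left (pow_ne_zero _ hfs)⟩ : IsIntegral R (f a / f s))
  refine ⟨y, IsFractionRing.injective R (FractionRing R) ?_⟩
  rw [map_mul, hy, mul_div_cancel₀ _ hfs]

theorem isIntegrallyClosed_of_hClosed (h : HClosed R) : IsIntegrallyClosed R := by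
  rw [isIntegrallyClosed_iff (FractionRing R)]
  rintro x ⟨p, hp, hpx⟩
  obtain ⟨a, s, hs, rfl⟩ := IsFractionRing.div_surjective (A := R) x
  have hs0 : s ≠ 0 := nonZeroDivisors.ne_zero hs
  set f := algebraMap R (FractionRing R)
  have hfs : f s ≠ 0 := fun h0 => hs0 (IsFractionRing.injective R _ (h0.trans (map_zero f).symm))
  have h1 : Polynomial.eval₂ f (f a) (p.scaleRoots s) = 0 := by
    rw [← mul_div_cancel₀ (f a) hfs, Polynomial.scaleRoots_eval₂_mul, hpx, mul_zero]
  rw [Polynomial.eval₂_at_apply] at h1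
  obtain ⟨y, rfl⟩ := h a s hs0 p hp (IsFractionRing.injective R _ (h1.trans (map_zero f).symm))
  exact ⟨y, by rw [map_mul, mul_div_cancel_left₀ _ hfs]⟩

theorem hClosed_of_ringEquiv {S : Type*} [CommRing S] (e : R ≃+* S) (h : HClosed R) :
    HClosed S := by
  intro a s hs p hp he
  have := h (e.symm a) (e.symm s) (by simpa using hs) (p.map e.symm.toRingHom)
    (hp.map _) ?_
  · obtain ⟨y, hy⟩ := this
    exact ⟨e y, by simpa using congrArg e hy⟩
  · rw [show e.symm s = e.symm.toRingHom s from rfl,
      ← Polynomial.map_scaleRoots _ _ _ (by simp [hp.leadingCoeff]),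
      show e.symm a = e.symm.toRingHom a from rfl, Polynomial.eval_map, Polynomial.eval₂_at_apply,
      he, map_zero]

/-- Descent of `HClosed` along an injective map through which the data lift up to denominators. -/
theorem hClosed_of_clear {S : Type*} [CommRing S] [IsDomain S] (j : R →+* S)
    (hj : Function.Injective j) (h : HClosed R)
    (hclear : ∀ F : Finset S, ∃ t : S, IsUnit t ∧ t ∈ j.range ∧ ∀ x ∈ F, t * x ∈ j.range) :
    HClosed S := by
  classical
  intro a s hs p hp he
  obtain ⟨t, ht, ⟨t₀, rfl⟩, hF⟩ :=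
    hclear (insert a (insert s ((Finset.range p.natDegree).image p.coeff)))
  obtain ⟨a₀, ha₀⟩ := hF a (Finset.mem_insert_self _ _)
  obtain ⟨s₀, hs₀⟩ := hF s (Finset.mem_insert_of_mem (Finset.mem_insert_self _ _))
  have hlift : (p.scaleRoots (j t₀)) ∈ Polynomial.lifts j := by
    refine (Polynomial.lifts_iff_coeff_lifts _).mpr fun i => ?_
    rw [Polynomial.coeff_scaleRoots]
    rcases lt_trichotomy i p.natDegree with hi | hi | hi
    · obtain ⟨c, hc⟩ := hF (p.coeff i) (Finset.mem_insert_of_mem (Finset.mem_insert_of_mem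
        (Finset.mem_image_of_mem _ (Finset.mem_range.mpr hi))))
      exact ⟨c * t₀ ^ (p.natDegree - i - 1), by
        rw [map_mul, map_pow, hc, show p.natDegree - i = (p.natDegree - i - 1) + 1 by omega,
          pow_succ, Nat.add_sub_cancel]; ring⟩
    · exact ⟨1, by rw [map_one, hi, Nat.sub_self, pow_zero, mul_one]; exact hp.coeff_natDegree.symm⟩
    · exact ⟨0, by rw [map_zero, Polynomial.coeff_eq_zero_of_natDegree_lt hi, zero_mul]⟩
  obtain ⟨q, hq, hqd, hqm⟩ := Polynomial.lifts_and_degree_eq_and_monic hlift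
    ((Polynomial.monic_scaleRoots_iff (j t₀)).mpr hp)
  have hs0 : s₀ ≠ 0 := fun h0 => by
    rw [h0, map_zero, eq_comm, mul_eq_zero] at hs₀
    exact hs₀.elim ht.ne_zero hs
  have hq0 : (q.scaleRoots s₀).eval (t₀ * a₀) = 0 := by
    refine hj ?_
    rw [map_zero, ← Polynomial.eval₂_at_apply, ← Polynomial.eval_map,
      Polynomial.map_scaleRoots _ _ _ (by simp [hqm.leadingCoeff]), hq,
      ← Polynomial.scaleRoots_mul, map_mul, ha₀, hs₀,
      show j t₀ * (j t₀ * s) = j t₀ * j t₀ * s by ring, mul_comm _ s, mul_comm s,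
      Polynomial.scaleRoots_mul, ← mul_assoc]
    have := Polynomial.scaleRoots_eval_mul (p.scaleRoots s) a (j t₀ * j t₀)
    rw [← Polynomial.scaleRoots_mul, he, mul_zero, mul_comm s] at this
    rwa [← Polynomial.scaleRoots_mul]
  obtain ⟨y, hy⟩ := h _ s₀ hs0 q hqm hq0
  obtain ⟨v, hv⟩ := ht
  refine ⟨↑v⁻¹ * j y, ?_⟩
  have h2 := congrArg j hy
  rw [map_mul, map_mul, ha₀, hs₀, ← hv] at h2
  have h3 : (v : S) * a = s * j y := mul_left_cancel₀ v.ne_zero (h2.trans (by ring))
  calc a = ↑v⁻¹ * (↑v * a) := (Units.inv_mul_cancel_left v a).symm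
    _ = s * (↑v⁻¹ * j y) := by rw [h3]; ring

end HClosed

section Scalars

variable (K : Type*) [Field K] {A A' B : Type*} [CommRing A] [Algebra K A] [CommRing A']
  [Algebra K A'] [CommRing B] [Algebra K B]

/-- Change of scalars in `A ⊗ B`. -/
def scalarMap (f : A →ₐ[K] A') : A ⊗[K] B →ₐ[K] A' ⊗[K] B :=
  Algebra.TensorProduct.map f (AlgHom.id K B)

theorem scalarMap_tmul (f : A →ₐ[K] A') (a : A) (b : B) :
    scalarMap K f (a ⊗ₜ[K] b) = f a ⊗ₜ[K] b :=
  Algebra.TensorProduct.map_tmul _ _ _ _

theorem scalarMap_injective (f : A →ₐ[K] A') (hf : Function.Injective f) :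
    Function.Injective (scalarMap K (B := B) f) :=
  Module.Flat.rTensor_preserves_injective_linearMap f.toLinearMap hf

theorem exists_subalgebra_lift (z : A ⊗[K] B) :
    ∃ R : Subalgebra K A, R.FG ∧ ∀ R' : Subalgebra K A, R ≤ R' →
      z ∈ Set.range (scalarMap K (B := B) R'.val) := by
  induction z using TensorProduct.induction_on with
  | zero => exact ⟨⊥, Subalgebra.fg_bot, fun R' _ => ⟨0, map_zero _⟩⟩
  | tmul a b =>
    refine ⟨Algebra.adjoin K {a}, Subalgebra.fg_adjoin_finset {a} |> fun h => by simpa using h,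
      fun R' h => ⟨⟨a, h (Algebra.subset_adjoin rfl)⟩ ⊗ₜ[K] b, scalarMap_tmul K _ _ _⟩⟩
  | add x y hx hy =>
    obtain ⟨R, hR, hx⟩ := hx
    obtain ⟨S, hS, hy⟩ := hy
    refine ⟨R ⊔ S, hR.sup hS, fun R' h => ?_⟩
    obtain ⟨x', hx'⟩ := hx R' (le_sup_left.trans h)
    obtain ⟨y', hy'⟩ := hy R' (le_sup_right.trans h)
    exact ⟨x' + y', by rw [map_add, hx', hy']⟩

theorem exists_subalgebra_lift_finset (F : Finset (A ⊗[K] B)) :
    ∃ R : Subalgebra K A, R.FG ∧ ∀ z ∈ F, z ∈ Set.range (scalarMap K (B := B) R.val) := by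
  classical
  suffices h : ∃ R : Subalgebra K A, R.FG ∧ ∀ R', R ≤ R' → ∀ z ∈ F,
      z ∈ Set.range (scalarMap K (B := B) R'.val) by
    obtain ⟨R, hR, h⟩ := h
    exact ⟨R, hR, h R le_rfl⟩
  induction F using Finset.induction with
  | empty => exact ⟨⊥, Subalgebra.fg_bot, by simp⟩
  | insert z F _ ih =>
    obtain ⟨R, hR, h⟩ := ih
    obtain ⟨S, hS, h'⟩ := exists_subalgebra_lift K z
    refine ⟨R ⊔ S, hR.sup hS, fun R' hle w hw => ?_⟩
    rcases Finset.mem_insert.mp hw with rfl | hw
    · exact h' R' (le_sup_right.trans hle)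
    · exact h R' (le_sup_left.trans hle) w hw

end Scalars

variable (K B k : Type u) [Field K] [IsAlgClosed K] [CommRing B] [IsDomain B] [Algebra K B]
  [Field k] [Algebra K k]

/-- The points of a finitely generated domain over `K` separate its elements. -/
theorem exists_algHom_ne_zero (R : Type u) [CommRing R] [IsDomain R] [Algebra K R]
    [Algebra.FiniteType K R] {t : R} (ht : t ≠ 0) : ∃ φ : R →ₐ[K] K, φ t ≠ 0 := by
  let R' := Localization.Away t
  haveI : Nontrivial R' :=
    (IsLocalization.injective R' (powers_le_nonZeroDivisors_of_noZeroDivisors ht)).nontrivial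
  haveI : Algebra.FiniteType R R' := IsLocalization.finiteType_of_monoid_fg (Submonoid.powers t) R'
  haveI : Algebra.FiniteType K R' := Algebra.FiniteType.trans (S := R) inferInstance inferInstance
  obtain ⟨m, hm⟩ := Ideal.exists_maximal R'
  haveI := hm
  letI := Ideal.Quotient.field m
  haveI : Algebra.FiniteType K (R' ⧸ m) :=
    Algebra.FiniteType.of_surjective (Ideal.Quotient.mkₐ K m) (Ideal.Quotient.mkₐ_surjective K m)
  haveI : Module.Finite K (R' ⧸ m) := finite_of_finite_type_of_isJacobsonRing K (R' ⧸ m)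
  let e := AlgEquiv.ofBijective (Algebra.ofId K (R' ⧸ m))
    IsAlgClosed.algebraMap_bijective_of_isIntegral
  let ψ : R →ₐ[K] R' ⧸ m := (Ideal.Quotient.mkₐ K m).comp (IsScalarTower.toAlgHom K R R')
  refine ⟨e.symm.toAlgHom.comp ψ, fun h => ?_⟩
  have h1 : IsUnit (ψ t) := (IsLocalization.Away.algebraMap_isUnit (S := R') t).map
    (Ideal.Quotient.mkₐ K m)
  exact (h1.map (e.symm.toAlgHom)).ne_zero h

/-- The base change of a domain is a domain. -/
theorem isDomain_tensor : IsDomain (k ⊗[K] B) := by
  classical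
  haveI : Nontrivial (k ⊗[K] B) := (Algebra.TensorProduct.includeRight_injective
    (R := K) (A := k) (algebraMap K k).injective).nontrivial
  suffices NoZeroDivisors (k ⊗[K] B) from NoZeroDivisors.to_isDomain _
  refine ⟨fun {x y} hxy => ?_⟩
  obtain ⟨R, hR, hF⟩ := exists_subalgebra_lift_finset K ({x, y} : Finset (k ⊗[K] B))
  obtain ⟨x', rfl⟩ := hF x (by simp)
  obtain ⟨y', rfl⟩ := hF y (by simp)
  haveI : Algebra.FiniteType K R := R.fg_iff_finiteType.mp hR
  have hinj := scalarMap_injective K (B := B) R.val Subtype.val_injective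
  have h0 : x' * y' = 0 := hinj (by rw [map_mul, hxy, map_zero])
  by_contra hne
  rw [not_or] at hne
  have hx0 : x' ≠ 0 := fun h => hne.1 (by rw [h, map_zero])
  have hy0 : y' ≠ 0 := fun h => hne.2 (by rw [h, map_zero])
  let bB := Module.Basis.ofVectorSpace K B
  let e := Algebra.TensorProduct.basis R bB
  obtain ⟨i, hi⟩ := Finsupp.ne_iff.mp (fun h => hx0 (e.repr.map_eq_zero_iff.mp h))
  obtain ⟨l, hl⟩ := Finsupp.ne_iff.mp (fun h => hy0 (e.repr.map_eq_zero_iff.mp h))
  obtain ⟨φ, hφ⟩ := exists_algHom_ne_zero K R (mul_ne_zero hi hl)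
  rw [map_mul, mul_ne_zero_iff] at hφ
  let ev : R ⊗[K] B →ₐ[K] B := Algebra.TensorProduct.lift ((Algebra.ofId K B).comp φ)
    (AlgHom.id K B) (fun _ _ => Commute.all _ _)
  have hev : ∀ (z : R ⊗[K] B) (j), bB.repr (ev z) j = φ (e.repr z j) := fun z j => by
    induction z using TensorProduct.induction_on with
    | zero => simp
    | tmul r b =>
      simp only [e, ev, Algebra.TensorProduct.basis_repr_tmul, Algebra.TensorProduct.lift_tmul,
        AlgHom.comp_apply, AlgHom.id_apply, Algebra.ofId_apply]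
      rw [← Algebra.smul_def, map_smul, Finsupp.smul_apply, Finsupp.smul_apply,
        Finsupp.mapRange_apply, smul_eq_mul, smul_eq_mul, map_mul, AlgHom.commutes]
      rfl
    | add z w hz hw => simp only [map_add, Finsupp.add_apply, hz, hw]
  have h1 : ev x' * ev y' = 0 := by rw [← map_mul, h0, map_zero]
  rcases mul_eq_zero.mp h1 with h | h
  · exact hφ.1 (by rw [← hev, h, map_zero, Finsupp.zero_apply])
  · exact hφ.2 (by rw [← hev, h, map_zero, Finsupp.zero_apply])

section Separable

variable {E L D : Type*} [Field E] [Field L] [Algebra E L] [FiniteDimensional E L]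
  [Algebra.IsSeparable E L] [CommRing D] [IsDomain D] [Algebra E D]

/-- A finite separable extension of scalars keeps integral closedness. -/
theorem hClosed_separable [IsIntegrallyClosed D] [IsDomain (D ⊗[E] L)] :
    HClosed (D ⊗[E] L) := by
  classical
  intro a s hs p hp he
  haveI : Algebra.IsIntegral D (D ⊗[E] L) := Algebra.IsIntegral.of_finite D _
  obtain ⟨r, hr0, hr⟩ : ∃ r : D, r ≠ 0 ∧ algebraMap D (D ⊗[E] L) r ∈ Ideal.span {s} := by
    by_contra hne
    push Not at hne
    have h1 : (Ideal.span {s}).comap (algebraMap D (D ⊗[E] L)) = ⊥ :=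
      (Submodule.eq_bot_iff _).mpr fun r hr => by_contra fun h0 => hne r h0 (Ideal.mem_comap.mp hr)
    exact hs (Ideal.span_singleton_eq_bot.mp (Ideal.eq_bot_of_comap_eq_bot h1))
  obtain ⟨u, hu⟩ := Ideal.mem_span_singleton'.mp hr
  set T := algebraMap D (D ⊗[E] L)
  have he' : (p.scaleRoots (T r)).eval (u * a) = 0 := by
    rw [← hu, Polynomial.scaleRoots_mul]
    have := Polynomial.scaleRoots_eval_mul (p.scaleRoots s) a u
    rw [he, mul_zero, ← Polynomial.scaleRoots_mul, mul_comm s u, Polynomial.scaleRoots_mul] at this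
    exact this
  let F := FractionRing D
  let Ω := AlgebraicClosure F
  let bL := Module.finBasis E L
  let w := bL.traceDual
  let e := Algebra.TensorProduct.basis D bL
  have hrΩ : algebraMap D Ω r ≠ 0 := fun h => hr0 <| by
    rw [IsScalarTower.algebraMap_apply D F Ω] at h
    exact (map_eq_zero_iff _ (IsFractionRing.injective D F)).mp
      ((map_eq_zero_iff _ (algebraMap F Ω).injective).mp h)
  -- the conjugates
  let Φ : (L →ₐ[E] Ω) → (D ⊗[E] L →ₐ[D] Ω) := fun σ =>
    Algebra.TensorProduct.lift (Algebra.ofId D Ω) σ (fun _ _ => Commute.all _ _)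
  have hy : ∀ σ, IsIntegral D (Φ σ (u * a) / algebraMap D Ω r) := fun σ => by
    have h1 := congrArg (Φ σ) he'
    rw [map_zero, ← AlgHom.coe_toRingHom, ← Polynomial.eval₂_at_apply] at h1
    set f := ((Φ σ : D ⊗[E] L →ₐ[D] Ω) : D ⊗[E] L →+* Ω) with hf
    have hfr : f (T r) = algebraMap D Ω r := (Φ σ).commutes r
    have h2 : Polynomial.eval₂ f (Φ σ (u * a) / algebraMap D Ω r) p = 0 := by
      have h3 : f (T r) * (Φ σ (u * a) / algebraMap D Ω r) = f (u * a) := by
        rw [hfr, mul_div_cancel₀ _ hrΩ]; rfl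
      have h4 := Polynomial.scaleRoots_eval₂_mul (p := p) f (Φ σ (u * a) / algebraMap D Ω r) (T r)
      rw [h3] at h4
      exact (mul_eq_zero.mp (h4.symm.trans h1)).resolve_left
        (pow_ne_zero _ (by rw [hfr]; exact hrΩ))
    letI := ((Φ σ : D ⊗[E] L →ₐ[D] Ω) : D ⊗[E] L →+* Ω).toAlgebra
    haveI : IsScalarTower D (D ⊗[E] L) Ω :=
      IsScalarTower.of_algebraMap_eq fun d => ((Φ σ).commutes d).symm
    exact isIntegral_trans (A := D ⊗[E] L) _ ⟨p, hp, h2⟩
  have hσ : ∀ (σ : L →ₐ[E] Ω) (x : L), IsIntegral D (σ x) := fun σ x =>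
    ((Algebra.IsIntegral.isIntegral (R := E) x).map σ).tower_top
  have hco : ∀ i, r ∣ e.repr (u * a) i := fun i => by
    have hsum : algebraMap D Ω (e.repr (u * a) i) / algebraMap D Ω r =
        ∑ σ : L →ₐ[E] Ω, σ (w i) * (Φ σ (u * a) / algebraMap D Ω r) := by
      simp_rw [mul_div_assoc']
      rw [← Finset.sum_div]
      congr 1
      have hexp : ∀ σ, Φ σ (u * a) = ∑ m, algebraMap D Ω (e.repr (u * a) m) * σ (bL m) := fun σ => by
        conv_lhs => rw [← e.sum_repr (u * a)]
        rw [map_sum]
        refine Finset.sum_congr rfl fun m _ => ?_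
        rw [map_smul, Algebra.smul_def]
        show algebraMap D Ω (e.repr (u * a) m) * Φ σ (e m) = _
        rw [show e m = (1 : D) ⊗ₜ[E] bL m from Algebra.TensorProduct.basis_apply bL m,
          show Φ σ ((1 : D) ⊗ₜ[E] bL m) = σ (bL m) from
            (Algebra.TensorProduct.lift_tmul _ _ _ _ _).trans (by rw [map_one, one_mul])]
      rw [Finset.sum_congr rfl fun σ _ => (congrArg (fun z => σ (w i) * z) (hexp σ)).trans
        (Finset.mul_sum _ _ _)]
      rw [Finset.sum_comm, Finset.sum_eq_single i]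
      · rw [show ∑ σ : L →ₐ[E] Ω, σ (w i) * (algebraMap D Ω (e.repr (u * a) i) * σ (bL i)) =
          algebraMap D Ω (e.repr (u * a) i) * ∑ σ : L →ₐ[E] Ω, σ (w i * bL i) from by
            rw [Finset.mul_sum]; exact Finset.sum_congr rfl fun σ _ => by rw [map_mul σ]; ring,
          ← trace_eq_sum_embeddings, bL.trace_traceDual_mul]
        simp
      · intro m _ hm
        rw [show ∑ σ : L →ₐ[E] Ω, σ (w i) * (algebraMap D Ω (e.repr (u * a) m) * σ (bL m)) =
          algebraMap D Ω (e.repr (u * a) m) * ∑ σ : L →ₐ[E] Ω, σ (w i * bL m) from by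
            rw [Finset.mul_sum]; exact Finset.sum_congr rfl fun σ _ => by rw [map_mul σ]; ring,
          ← trace_eq_sum_embeddings, bL.trace_traceDual_mul]
        simp [hm]
      · exact fun h => absurd (Finset.mem_univ i) h
    have hint : IsIntegral D (algebraMap D Ω (e.repr (u * a) i) / algebraMap D Ω r) :=
      hsum ▸ IsIntegral.sum _ fun σ _ => (hσ σ _).mul (hy σ)
    rw [IsScalarTower.algebraMap_apply D F Ω, IsScalarTower.algebraMap_apply D F Ω r,
      ← map_div₀, isIntegral_algebraMap_iff (algebraMap F Ω).injective] at hint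
    obtain ⟨y, hy⟩ := IsIntegrallyClosed.isIntegral_iff.mp hint
    refine ⟨y, IsFractionRing.injective D F ?_⟩
    refine (Eq.trans ?_ (map_mul _ r y).symm)
    rw [hy, mul_div_cancel₀]
    exact (map_ne_zero_iff _ (IsFractionRing.injective D F)).mpr hr0
  choose q hq using hco
  have hua : u * a = T r * ∑ i, q i • e i := by
    conv_lhs => rw [← e.sum_repr (u * a)]
    rw [← Algebra.smul_def, Finset.smul_sum]
    exact Finset.sum_congr rfl fun i _ => by rw [hq, mul_smul]
  have hu0 : u ≠ 0 := fun h => by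
    rw [h, zero_mul] at hu
    exact hr0 ((map_eq_zero_iff _ (FaithfulSMul.algebraMap_injective D (D ⊗[E] L))).mp hu.symm)
  exact ⟨∑ i, q i • e i, mul_left_cancel₀ hu0 (hua.trans (by rw [← hu]; ring))⟩

end Separable

/-- Polynomial rings keep integral closedness. -/
theorem isIntegrallyClosed_mvPolynomial_fin (R : Type*) [CommRing R] [IsDomain R]
    [IsIntegrallyClosed R] : ∀ n : ℕ, IsIntegrallyClosed (MvPolynomial (Fin n) R)
  | 0 => IsIntegrallyClosed.of_equiv (MvPolynomial.isEmptyAlgEquiv R (Fin 0)).symm.toRingEquiv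
  | n + 1 =>
    haveI := isIntegrallyClosed_mvPolynomial_fin R n
    IsIntegrallyClosed.of_equiv (MvPolynomial.finSuccEquiv R n).symm.toRingEquiv

theorem isIntegrallyClosed_mvPolynomial (R : Type*) [CommRing R] [IsDomain R]
    [IsIntegrallyClosed R] (σ : Type*) [Finite σ] : IsIntegrallyClosed (MvPolynomial σ R) :=
  haveI := isIntegrallyClosed_mvPolynomial_fin R (Nat.card σ)
  IsIntegrallyClosed.of_equiv (MvPolynomial.renameEquiv R (Finite.equivFin σ)).symm.toRingEquiv

/-- The fraction field of a ring of scalars. -/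
theorem hClosed_fractionRing {P : Type u} [CommRing P] [IsDomain P] [Algebra K P]
    [Algebra P k] [IsScalarTower K P k] [IsFractionRing P k] [IsDomain (P ⊗[K] B)]
    (h : HClosed (P ⊗[K] B)) : HClosed (k ⊗[K] B) := by
  classical
  haveI := isDomain_tensor K B k
  set j := scalarMap K (B := B) (IsScalarTower.toAlgHom K P k)
  have key : ∀ x : k ⊗[K] B, ∃ t : P, t ≠ 0 ∧ ∀ t' : P, t ∣ t' →
      (algebraMap P k t' ⊗ₜ[K] (1 : B)) * x ∈ j.toRingHom.range := fun x => by
    induction x using TensorProduct.induction_on with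
    | zero => exact ⟨1, one_ne_zero, fun t _ => by rw [mul_zero]; exact zero_mem _⟩
    | tmul c b =>
      obtain ⟨n, d, hd, rfl⟩ := IsFractionRing.div_surjective (A := P) c
      have hd0 : algebraMap P k d ≠ 0 :=
        IsFractionRing.to_map_ne_zero_of_mem_nonZeroDivisors hd
      refine ⟨d, nonZeroDivisors.ne_zero hd, ?_⟩
      rintro _ ⟨v, rfl⟩
      refine ⟨(v * n) ⊗ₜ[K] b, ?_⟩
      show j _ = _
      rw [scalarMap_tmul, Algebra.TensorProduct.tmul_mul_tmul, one_mul, IsScalarTower.coe_toAlgHom']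
      congr 1
      rw [map_mul, map_mul]
      field_simp
    | add x y hx hy =>
      obtain ⟨t, ht, hx⟩ := hx
      obtain ⟨t', ht', hy⟩ := hy
      refine ⟨t * t', mul_ne_zero ht ht', fun v hv => ?_⟩
      rw [mul_add]
      exact add_mem (hx v ((dvd_mul_right t t').trans hv)) (hy v ((dvd_mul_left t' t).trans hv))
  choose t ht htx using key
  refine hClosed_of_clear j.toRingHom
    (scalarMap_injective K _ (IsFractionRing.injective P k)) h fun F => ?_
  refine ⟨algebraMap P k (∏ x ∈ F, t x) ⊗ₜ[K] (1 : B), ?_,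
    ⟨(∏ x ∈ F, t x) ⊗ₜ[K] (1 : B), scalarMap_tmul K _ _ _⟩,
    fun x hx => htx x _ (Finset.dvd_prod_of_mem _ hx)⟩
  exact (((map_ne_zero_iff _ (IsFractionRing.injective P k)).mpr
    (Finset.prod_ne_zero_iff.mpr fun x _ => ht x)).isUnit).map
    (Algebra.TensorProduct.includeLeft : k →ₐ[K] k ⊗[K] B)

set_option maxHeartbeats 1000000 in
/-- A finite separable step. -/
theorem hClosed_tower (E : Type u) [Field E] [Algebra K E] [Algebra E k] [IsScalarTower K E k]
    [FiniteDimensional E k] [Algebra.IsSeparable E k] (h : HClosed (E ⊗[K] B)) :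
    HClosed (k ⊗[K] B) := by
  haveI := isDomain_tensor K B E
  haveI := isDomain_tensor K B k
  haveI : IsIntegrallyClosed (E ⊗[K] B) := isIntegrallyClosed_of_hClosed h
  let e : (E ⊗[K] B) ⊗[E] k ≃+* k ⊗[K] B :=
    (Algebra.TensorProduct.comm E (E ⊗[K] B) k).toRingEquiv.trans
      (Algebra.TensorProduct.cancelBaseChange K E k k B).toRingEquiv
  haveI : IsDomain ((E ⊗[K] B) ⊗[E] k) := e.toMulEquiv.isDomain
  exact hClosed_of_ringEquiv e hClosed_separable

set_option maxHeartbeats 1000000 in
set_option synthInstance.maxHeartbeats 400000 in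
/-- A finitely generated extension of scalars keeps integral closedness. -/
theorem hClosed_essFiniteType [IsIntegrallyClosed B] [Algebra.EssFiniteType K k] :
    HClosed (k ⊗[K] B) := by
  classical
  obtain ⟨s, hs, hsep⟩ := exists_isTranscendenceBasis_and_isSeparable_of_perfectField K k
  set E := IntermediateField.adjoin K (s : Set k)
  haveI := hsep
  haveI : Algebra.EssFiniteType E k := Algebra.EssFiniteType.of_comp K E k
  haveI : FiniteDimensional E k := Algebra.finite_of_essFiniteType_of_isAlgebraic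
  let P := MvPolynomial (s : Set k) K
  haveI : IsDomain (P ⊗[K] B) := by
    haveI : IsDomain (MvPolynomial (s : Set k) B) := inferInstance
    exact ((Algebra.TensorProduct.comm K P B).trans
      (((MvPolynomial.algebraTensorAlgEquiv K B).restrictScalars K))).toMulEquiv.isDomain
  have hP : HClosed (P ⊗[K] B) := by
    haveI := isIntegrallyClosed_mvPolynomial B (s : Set k)
    exact hClosed_of_ringEquiv ((Algebra.TensorProduct.comm K P B).trans
      ((MvPolynomial.algebraTensorAlgEquiv K B).restrictScalars K)).toRingEquiv.symm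
      hClosed_of_isIntegrallyClosed
  let g : P →ₐ[K] E := MvPolynomial.aeval fun i => ⟨i.1, IntermediateField.subset_adjoin K _ i.2⟩
  letI : Algebra P E := g.toRingHom.toAlgebra
  haveI : IsScalarTower K P E := IsScalarTower.of_algebraMap_eq fun c => (g.commutes c).symm
  have hcomp : ∀ q : P, (g q : k) = MvPolynomial.aeval (fun i : (s : Set k) => (i : k)) q :=
    fun q => DFunLike.congr_fun (MvPolynomial.comp_aeval (f := fun i : (s : Set k) => (⟨i.1, IntermediateField.subset_adjoin K _ i.2⟩ : E)) E.val) q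
  haveI : IsFractionRing P E := by
    haveI : FaithfulSMul P E := (faithfulSMul_iff_algebraMap_injective P E).mpr fun a b hab =>
      hs.1 ((hcomp a).symm.trans ((congrArg Subtype.val hab).trans (hcomp b)))
    refine IsFractionRing.of_field P E fun z => ?_
    obtain ⟨a, b, hz⟩ := (IntermediateField.mem_adjoin_range_iff K
      (fun i : (s : Set k) => (i : k)) (z : k)).mp (by rw [Subtype.range_coe]; exact z.2)
    refine ⟨a, b, Subtype.ext ?_⟩
    show (z : k) = ((g a / g b : E) : k)
    rw [hz, IntermediateField.coe_div, hcomp, hcomp]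
  exact hClosed_tower K B k E (hClosed_fractionRing K B E hP)

/-- The base change of an integrally closed domain is integrally closed. -/
theorem isIntegrallyClosed_tensor [IsIntegrallyClosed B] :
    IsIntegrallyClosed (k ⊗[K] B) := by
  classical
  haveI := isDomain_tensor K B k
  refine isIntegrallyClosed_of_hClosed fun a s hs p hp he => ?_
  obtain ⟨R, ⟨S, hS⟩, hF⟩ := exists_subalgebra_lift_finset K
    (insert a (insert s ((Finset.range (p.natDegree + 1)).image p.coeff)))
  let k₀ := IntermediateField.adjoin K (S : Set k)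
  have hle : R ≤ k₀.toSubalgebra := hS ▸ Algebra.adjoin_le (IntermediateField.subset_adjoin K _)
  have hR : ∀ z ∈ Set.range (scalarMap K (B := B) R.val),
      z ∈ (scalarMap K (B := B) k₀.val).toRingHom.range := by
    rintro _ ⟨z, rfl⟩
    refine ⟨scalarMap K (Subalgebra.inclusion hle) z, ?_⟩
    induction z using TensorProduct.induction_on with
    | zero => simp
    | tmul c b => rfl
    | add x y hx hy => simp only [map_add] at hx hy ⊢; rw [hx, hy]
  haveI : Algebra.EssFiniteType K k₀ :=
    IntermediateField.essFiniteType_iff.mpr (IntermediateField.fg_adjoin_finset S)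
  set j := (scalarMap K (B := B) k₀.val).toRingHom
  have hj : Function.Injective j := scalarMap_injective K _ Subtype.val_injective
  obtain ⟨a₀, rfl⟩ := hR a (hF a (Finset.mem_insert_self _ _))
  obtain ⟨s₀, rfl⟩ := hR s (hF s (Finset.mem_insert_of_mem (Finset.mem_insert_self _ _)))
  have hlift : p ∈ Polynomial.lifts j := by
    refine (Polynomial.lifts_iff_coeff_lifts _).mpr fun i => ?_
    rcases le_or_gt i p.natDegree with hi | hi
    · exact hR _ (hF _ (Finset.mem_insert_of_mem (Finset.mem_insert_of_mem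
        (Finset.mem_image_of_mem _ (Finset.mem_range.mpr (Nat.lt_succ_of_le hi))))))
    · exact ⟨0, by rw [map_zero, Polynomial.coeff_eq_zero_of_natDegree_lt hi]⟩
  obtain ⟨q, rfl, -, hq⟩ := Polynomial.lifts_and_degree_eq_and_monic hlift hp
  obtain ⟨y, hy⟩ := hClosed_essFiniteType K B k₀ a₀ s₀ (fun h => hs (by rw [h, map_zero])) q hq
    (hj (by rw [map_zero, ← Polynomial.eval₂_at_apply, ← Polynomial.eval_map,
      Polynomial.map_scaleRoots _ _ _ (by simp [hq.leadingCoeff]), he]))
  exact ⟨j y, by rw [hy, map_mul]⟩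

end Fermat.Agent.AbVar
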