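import Mathlib

/-!
# Spaces of functions with bounded poles grow at most like the power of the dimension

Noether normalisation, the degree valuation, and the trace on the separable part.
-/

set_option autoImplicit false

noncomputable section

open scoped Classical

namespace Fermat.Agent.AbVar

universe u

/-- An element in every valuation ring containing the base is integral over it. -/
theorem isIntegral_of_forall_mem {A L : Type*} [CommRing A] [Field L] [Algebra A L] {x : L}
    (h : ∀ V : ValuationSubring L, (∀ a, algebraMap A L a ∈ V) → x ∈ V) : IsIntegral A x := by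
  set R := (algebraMap A L).range
  have h1 : x ∈ (⨅ V : {V : ValuationSubring L // (R : Set L) ⊆ V.toSubring}, V.1.toSubring) :=
    Subring.mem_iInf.mpr fun V => h V.1 fun a => V.2 ⟨a, rfl⟩
  rw [iInf_valuationSubring_superset] at h1
  obtain ⟨p, hp, hpx⟩ := h1
  let e : Subring.closure (R : Set L) →+* R := Subring.inclusion (Subring.closure_le.mpr le_rfl)
  have hint : IsIntegral R x := ⟨p.map e, hp.map e, by rw [Polynomial.eval₂_map]; exact hpx⟩
  obtain ⟨q, hq, hqx⟩ := hint
  obtain ⟨q', rfl⟩ := Polynomial.map_surjective _ (algebraMap A L).rangeRestrict_surjective q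
  obtain ⟨q₂, hq₂, -, hq₂m⟩ := Polynomial.lifts_and_degree_eq_and_monic (Polynomial.mem_lifts _
    |>.mpr ⟨q', rfl⟩) hq
  refine ⟨q₂, hq₂m, ?_⟩
  have := hqx
  rw [← hq₂, Polynomial.eval₂_map] at this
  exact this

/-- An element integral over a subset of a valuation ring lies in it. -/
theorem mem_valuationSubring_of_isIntegral {A L : Type*} [CommRing A] [Field L] [Algebra A L]
    {x : L} (hx : IsIntegral A x) (V : ValuationSubring L) (hV : ∀ a, algebraMap A L a ∈ V) :
    x ∈ V := by
  obtain ⟨p, hp, hpx⟩ := hx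
  let e : A →+* V := (algebraMap A L).codRestrict V.toSubring hV
  have : IsIntegral V x := ⟨p.map e, hp.map e, by rw [Polynomial.eval₂_map]; exact hpx⟩
  obtain ⟨y, hy⟩ := IsIntegrallyClosed.isIntegral_iff.mp this
  exact hy ▸ y.2

variable {K : Type u} [Field K]

/-- The total degree as a valuation. -/
def degVal (σ : Type*) : Valuation (MvPolynomial σ K) (WithZero (Multiplicative ℤ)) where
  toFun p := if p = 0 then 0 else WithZero.exp (p.totalDegree : ℤ)
  map_zero' := if_pos rfl
  map_one' := by rw [if_neg one_ne_zero, MvPolynomial.totalDegree_one, Nat.cast_zero, WithZero.exp_zero]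
  map_mul' p q := by
    rcases eq_or_ne p 0 with rfl | hp
    · simp
    rcases eq_or_ne q 0 with rfl | hq
    · simp
    rw [if_neg hp, if_neg hq, if_neg (mul_ne_zero hp hq),
      MvPolynomial.totalDegree_mul_of_isDomain hp hq, Nat.cast_add, WithZero.exp_add]
  map_add_le_max' p q := by
    rcases eq_or_ne p 0 with rfl | hp
    · simp
    rcases eq_or_ne q 0 with rfl | hq
    · simp
    rcases eq_or_ne (p + q) 0 with h | h
    · simp [h]
    rw [if_neg hp, if_neg hq, if_neg h, le_max_iff, WithZero.exp_le_exp, WithZero.exp_le_exp,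
      Nat.cast_le, Nat.cast_le, ← le_max_iff]
    exact MvPolynomial.totalDegree_add p q

theorem degVal_apply {σ : Type*} {p : MvPolynomial σ K} (hp : p ≠ 0) :
    degVal σ p = WithZero.exp (p.totalDegree : ℤ) := if_neg hp

/-- The degree valuation on rational functions. -/
def degValF (σ : Type*) :
    Valuation (FractionRing (MvPolynomial σ K)) (WithZero (Multiplicative ℤ)) :=
  (degVal σ).extendToLocalization (S := nonZeroDivisors (MvPolynomial σ K))
    (fun p hp h => by
      rw [SetLike.mem_coe, Valuation.mem_supp_iff, degVal_apply (nonZeroDivisors.ne_zero hp)] at h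
      exact WithZero.exp_ne_zero h) _

theorem degValF_algebraMap {σ : Type*} (p : MvPolynomial σ K) :
    degValF σ (algebraMap _ (FractionRing (MvPolynomial σ K)) p) = degVal σ p :=
  Valuation.extendToLocalization_apply_map_apply _ _ _ _

variable [IsAlgClosed K] {FA : Type u} [Field FA] [Algebra K FA]

set_option maxHeartbeats 2000000 in
set_option synthInstance.maxHeartbeats 400000 in
/-- The growth bound. -/
theorem exists_growth_bound (O : Subalgebra K FA) (hfg : O.FG)
    (hfrac : ∀ x : FA, ∃ a ∈ O, ∃ b ∈ O, b ≠ 0 ∧ x = a / b) {g : ℕ} (z : Fin g → O)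
    (hz : AlgebraicIndependent K fun l => (z l : FA))
    (hint : ∀ a ∈ O, IsIntegral (Algebra.adjoin K (Set.range fun l => (z l : FA))) a)
    {ι : Type*} [Fintype ι] (y : ι → FA) (hy : ∀ c, y c ≠ 0) :
    ∃ C : ℕ, ∀ m : ℕ, ∀ W : Submodule K FA, (∀ f ∈ W, f ∈ O) →
      (∀ f ∈ W, ∀ V : ValuationSubring FA, (∀ c : K, algebraMap K FA c ∈ V) →
        ∃ c, f * y c ^ m ∈ V) →
      FiniteDimensional K W ∧ Module.finrank K W ≤ C * (m + 1) ^ g := by
  let P := MvPolynomial (Fin g) K
  let Kz := FractionRing P
  let toFA : P →ₐ[K] FA := MvPolynomial.aeval fun l => (z l : FA)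
  let toKz : Kz →ₐ[K] FA := IsFractionRing.liftAlgHom (g := toFA) hz
  letI : Algebra P FA := toFA.toRingHom.toAlgebra
  letI : Algebra Kz FA := toKz.toRingHom.toAlgebra
  haveI : IsScalarTower P Kz FA := IsScalarTower.of_algebraMap_eq fun p =>
    (IsFractionRing.lift_algebraMap (A := P) (K := Kz) hz p).symm
  haveI : IsScalarTower K P FA := IsScalarTower.of_algebraMap_eq fun c => (toFA.commutes c).symm
  haveI : IsScalarTower K Kz FA := IsScalarTower.of_algebraMap_eq fun c => (toKz.commutes c).symm
  have hintP : ∀ a ∈ O, IsIntegral P a := fun a ha => by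
    obtain ⟨p, hp, hpa⟩ := hint a ha
    have hr : Algebra.adjoin K (Set.range fun l => (z l : FA)) = toFA.range :=
      Algebra.adjoin_range_eq_range_aeval K _
    let e : Algebra.adjoin K (Set.range fun l => (z l : FA)) →+* toFA.range :=
      (Subalgebra.inclusion hr.le).toRingHom
    have hsur : Function.Surjective toFA.rangeRestrict.toRingHom := toFA.rangeRestrict_surjective
    obtain ⟨q, hq, -, hqm⟩ := Polynomial.lifts_and_degree_eq_and_monic
      (f := toFA.rangeRestrict.toRingHom)
      (Polynomial.mem_lifts _ |>.mpr (Polynomial.map_surjective _ hsur (p.map e))) (hp.map e)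
    refine ⟨q, hqm, ?_⟩
    have h2 : Polynomial.eval₂ (toFA.range.val.toRingHom) a (p.map e) = 0 := by
      rw [Polynomial.eval₂_map]; exact hpa
    rw [← hq, Polynomial.eval₂_map] at h2
    exact h2
  obtain ⟨gens, hgens⟩ := hfg
  haveI hfinKz : FiniteDimensional Kz FA := by
    have hgI : ∀ x ∈ (gens : Set FA), IsIntegral Kz x := fun x hx =>
      (hintP x (hgens ▸ Algebra.subset_adjoin hx)).tower_top
    haveI : FiniteDimensional Kz (IntermediateField.adjoin Kz (gens : Set FA)) :=
      IntermediateField.finiteDimensional_adjoin hgI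
    have htop : IntermediateField.adjoin Kz (gens : Set FA) = ⊤ := by
      refine eq_top_iff.mpr fun x _ => ?_
      have hO : ∀ a ∈ O, a ∈ IntermediateField.adjoin Kz (gens : Set FA) := fun a ha => by
        refine (Algebra.adjoin_le (R := K) (S := ((IntermediateField.adjoin Kz (gens : Set FA))
          |>.restrictScalars K).toSubalgebra) ?_) (hgens ▸ ha)
        exact IntermediateField.subset_adjoin Kz _
      obtain ⟨a, ha, b, hb, -, rfl⟩ := hfrac x
      exact div_mem (hO a ha) (hO b hb)
    haveI : FiniteDimensional Kz (⊤ : IntermediateField Kz FA) := htop ▸ inferInstance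
    exact IntermediateField.topEquiv.toLinearEquiv.finiteDimensional
  let S := separableClosure Kz FA
  obtain ⟨q, hq0, hqadd, hqS⟩ : ∃ q : ℕ, 0 < q ∧ (∀ a b : FA, (a + b) ^ q = a ^ q + b ^ q) ∧
      ∀ x : FA, x ^ q ∈ S := by
    obtain ⟨p, hp⟩ := ExpChar.exists K
    haveI : ExpChar FA p := expChar_of_injective_algebraMap (algebraMap K FA).injective p
    haveI : ExpChar S p := expChar_of_injective_algebraMap (algebraMap K S).injective p
    let bFA := Module.finBasis S FA
    choose n hn using fun i => IsPurelyInseparable.pow_mem S p (bFA i)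
    refine ⟨p ^ ∑ i, n i, pow_pos (expChar_pos K p) _, fun a b => add_pow_expChar_pow _ _ _ _,
      fun x => ?_⟩
    rw [← bFA.sum_repr x, sum_pow_char_pow]
    refine sum_mem fun i _ => ?_
    rw [Algebra.smul_def, mul_pow]
    refine mul_mem (pow_mem (SetLike.coe_mem (bFA.repr x i)) _) ?_
    obtain ⟨c, hc⟩ := hn i
    rw [← Finset.add_sum_erase _ _ (Finset.mem_univ i), pow_add, pow_mul, ← hc]
    exact pow_mem (SetLike.coe_mem c) _
  haveI : IsScalarTower P Kz S := IsScalarTower.of_algebraMap_eq fun p =>
    Subtype.ext (IsScalarTower.algebraMap_apply P Kz FA p)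
  haveI : IsScalarTower P S FA := IsScalarTower.of_algebraMap_eq fun _ => rfl
  haveI : Algebra.IsSeparable Kz S := inferInstanceAs (Algebra.IsSeparable Kz (separableClosure Kz FA))
  obtain ⟨e, bS, hbS⟩ : ∃ (e : ℕ) (b : Module.Basis (Fin e) Kz S), ∀ i, IsIntegral P (b i : FA) := by
    let b₀ := Module.finBasis Kz S
    have hm : ∀ i, ∃ s : P, s ≠ 0 ∧ IsIntegral P (s • b₀ i) := fun i => by
      obtain ⟨s, hs0, hs⟩ := exists_integral_multiples P Kz (L := S) {b₀ i}
      exact ⟨s, hs0, hs _ (Finset.mem_singleton_self _)⟩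
    choose s hs0 hs using hm
    refine ⟨_, b₀.unitsSMul fun i => Units.mk0 (algebraMap P Kz (s i))
      ((map_ne_zero_iff _ (IsFractionRing.injective P Kz)).mpr (hs0 i)), fun i => ?_⟩
    rw [Module.Basis.unitsSMul_apply, Units.smul_def, Units.val_mk0]
    have h1 := (hs i).map (IsScalarTower.toAlgHom P S FA)
    convert h1 using 1
    rw [IsScalarTower.coe_toAlgHom', algebraMap_smul]
    rfl
  have hdual : ∀ x : S, (∀ i, Algebra.trace Kz S (x * bS i) = 0) → x = 0 := fun x hx => by
    refine (traceForm_nondegenerate Kz S).1 x fun y => ?_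
    rw [← bS.sum_repr y, map_sum]
    exact Finset.sum_eq_zero fun i _ => by rw [map_smul, Algebra.traceForm_apply, hx, smul_zero]
  -- the degree valuation ring
  let v := degValF (K := K) (Fin g)
  let R := v.valuationSubring
  obtain ⟨T, hT0, hTle, hT⟩ : ∃ T : P, T ≠ 0 ∧ T.totalDegree ≤ 1 ∧
      ∀ x : FA, x ≠ 0 → ∃ s : ℕ, IsIntegral R (x / algebraMap P FA T ^ s) := by
    obtain ⟨T, hT0, hTle, hscale⟩ : ∃ T : P, T ≠ 0 ∧ T.totalDegree ≤ 1 ∧
        ∀ c : Kz, ∃ s : ℕ, c / algebraMap P Kz T ^ s ∈ R := by
      rcases Nat.eq_zero_or_pos g with hg | hg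
      · refine ⟨1, one_ne_zero, by simp, fun c => ⟨0, ?_⟩⟩
        rw [pow_zero, div_one]
        obtain ⟨a, b, hb, rfl⟩ := IsFractionRing.div_surjective (A := P) c
        haveI : IsEmpty (Fin g) := by rw [hg]; infer_instance
        have hd : ∀ p : P, p.totalDegree = 0 := fun p => by
          rw [MvPolynomial.eq_C_of_isEmpty p, MvPolynomial.totalDegree_C]
        rcases eq_or_ne a 0 with rfl | ha
        · simp
        show v _ ≤ 1
        rw [map_div₀, degValF_algebraMap, degValF_algebraMap, degVal_apply ha,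
          degVal_apply (nonZeroDivisors.ne_zero hb), hd, hd, div_self WithZero.exp_ne_zero]
      · refine ⟨MvPolynomial.X ⟨0, hg⟩, MvPolynomial.X_ne_zero _,
          (MvPolynomial.totalDegree_X _).le, fun c => ?_⟩
        obtain ⟨a, b, hb, rfl⟩ := IsFractionRing.div_surjective (A := P) c
        refine ⟨a.totalDegree, ?_⟩
        rcases eq_or_ne a 0 with rfl | ha
        · simp
        show v _ ≤ 1
        rw [map_div₀, map_div₀, map_pow, degValF_algebraMap, degValF_algebraMap, degValF_algebraMap,
          degVal_apply ha, degVal_apply (nonZeroDivisors.ne_zero hb),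
          degVal_apply (MvPolynomial.X_ne_zero _), MvPolynomial.totalDegree_X, ← WithZero.exp_nsmul,
          ← WithZero.exp_sub, ← WithZero.exp_sub, ← WithZero.exp_zero, WithZero.exp_le_exp]
        simp
    refine ⟨T, hT0, hTle, fun x _ => ?_⟩
    obtain ⟨p, hp, hpx⟩ := (Algebra.IsIntegral.isIntegral (R := Kz) x)
    choose s hs using hscale
    set N := ∑ i ∈ Finset.range p.natDegree, s (p.coeff i) with hN
    refine ⟨N, ?_⟩
    set c := (algebraMap P Kz T ^ N)⁻¹
    have hc : x / algebraMap P FA T ^ N = algebraMap Kz FA c * x := by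
      rw [map_inv₀, map_pow, ← IsScalarTower.algebraMap_apply P Kz FA, div_eq_inv_mul]
    have hTR : (algebraMap P Kz T)⁻¹ ∈ R := by
      show v _ ≤ 1
      rw [map_inv₀, degValF_algebraMap, degVal_apply hT0, ← WithZero.exp_neg, ← WithZero.exp_zero,
        WithZero.exp_le_exp]
      simp
    have hlift : p.scaleRoots c ∈ Polynomial.lifts R.subtype := by
      refine (Polynomial.lifts_iff_coeff_lifts _).mpr fun i => ?_
      rw [Polynomial.coeff_scaleRoots]
      refine ⟨⟨_, ?_⟩, rfl⟩
      show p.coeff i * c ^ (p.natDegree - i) ∈ R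
      rcases lt_trichotomy i p.natDegree with hi | hi | hi
      · obtain ⟨k, hk⟩ : ∃ k, p.natDegree - i = k + 1 := ⟨p.natDegree - i - 1, by omega⟩
        obtain ⟨r, hr⟩ : ∃ r, N = s (p.coeff i) + r := Nat.exists_eq_add_of_le
          (Finset.single_le_sum (fun j _ => Nat.zero_le (s (p.coeff j))) (Finset.mem_range.mpr hi))
        have e : p.coeff i * c ^ (p.natDegree - i) =
            (p.coeff i / algebraMap P Kz T ^ s (p.coeff i)) *
              ((algebraMap P Kz T)⁻¹ ^ r * c ^ k) := by
          rw [hk, pow_succ, show c = (algebraMap P Kz T)⁻¹ ^ N from (inv_pow _ _).symm, hr, pow_add,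
            div_eq_mul_inv, ← inv_pow]
          ring
        rw [e]
        exact mul_mem (hs _) (mul_mem (pow_mem hTR _)
          (pow_mem (show (algebraMap P Kz T ^ N)⁻¹ ∈ R by rw [← inv_pow]; exact pow_mem hTR N) _))
      · rw [hi, Nat.sub_self, pow_zero, mul_one, hp.coeff_natDegree]
        exact one_mem R
      · rw [Polynomial.coeff_eq_zero_of_natDegree_lt hi, zero_mul]
        exact zero_mem R
    obtain ⟨q₁, hq₁, -, hq₁m⟩ := Polynomial.lifts_and_degree_eq_and_monic hlift
      ((Polynomial.monic_scaleRoots_iff c).mpr hp)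
    refine ⟨q₁, hq₁m, ?_⟩
    rw [hc, show algebraMap R FA = (algebraMap Kz FA).comp R.subtype from rfl,
      ← Polynomial.eval₂_map, hq₁]
    exact Polynomial.scaleRoots_eval₂_eq_zero _ hpx
  choose sy hsy using fun c => hT (y c)⁻¹ (inv_ne_zero (hy c))
  choose sb hsb using fun i => hT (bS i : FA) (fun h => bS.ne_zero i (Subtype.ext h))
  set N₀ := q * ∑ c, sy c + ∑ i, sb i + 1 with hN₀
  refine ⟨e * (N₀ + 1) ^ g, fun m W hWO hW => ?_⟩
  -- the trace polynomials
  have hpoly : ∀ (f : W) (i : Fin e), ∃ p : P, p.totalDegree ≤ N₀ * (m + 1) ∧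
      algebraMap P Kz p = Algebra.trace Kz S (⟨(f : FA) ^ q, hqS _⟩ * bS i) := fun f i => by
    set x : S := ⟨(f : FA) ^ q, hqS _⟩ * bS i
    have hxP : IsIntegral P x := by
      refine (isIntegral_algHom_iff (IsScalarTower.toAlgHom P S FA) Subtype.val_injective).mp ?_
      exact ((hintP _ (hWO _ f.2)).pow q).mul (hbS i)
    obtain ⟨p, hp⟩ := IsIntegrallyClosed.isIntegral_iff.mp (Algebra.isIntegral_trace (L := Kz) hxP)
    refine ⟨p, ?_, hp⟩
    rcases eq_or_ne p 0 with rfl | hp0
    · simp
    set c := (algebraMap P Kz T ^ (N₀ * (m + 1)))⁻¹ with hc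
    have hcR : IsIntegral R (c • x) := by
      refine (isIntegral_algHom_iff (IsScalarTower.toAlgHom R S FA) Subtype.val_injective).mp ?_
      refine isIntegral_of_forall_mem fun V hV => ?_
      have hVc : ∀ a : K, algebraMap K FA a ∈ V := fun a => by
        have ha : algebraMap K Kz a ∈ R := by
          show v _ ≤ 1
          rw [IsScalarTower.algebraMap_apply K P Kz, degValF_algebraMap]
          rcases eq_or_ne a 0 with rfl | h0
          · simp
          · rw [degVal_apply ((map_ne_zero_iff _ (algebraMap K P).injective).mpr h0)]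
            rw [show MvPolynomial.totalDegree (algebraMap K P a) = 0 from MvPolynomial.totalDegree_C a,
              Nat.cast_zero, WithZero.exp_zero]
        have := hV ⟨_, ha⟩
        rwa [IsScalarTower.algebraMap_apply K Kz FA]
      obtain ⟨k, hk⟩ := hW _ f.2 V hVc
      have h1 := mem_valuationSubring_of_isIntegral (hsy k) V hV
      have h2 := mem_valuationSubring_of_isIntegral (hsb i) V hV
      set t := algebraMap P FA T
      have htinv : t⁻¹ ∈ V := by
        have hTR : (algebraMap P Kz T)⁻¹ ∈ R := by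
          show v _ ≤ 1
          rw [map_inv₀, degValF_algebraMap, degVal_apply hT0, ← WithZero.exp_neg,
            ← WithZero.exp_zero, WithZero.exp_le_exp]
          simp
        have := hV ⟨_, hTR⟩
        rwa [show algebraMap R FA ⟨_, hTR⟩ = algebraMap Kz FA (algebraMap P Kz T)⁻¹ from rfl,
          map_inv₀, ← IsScalarTower.algebraMap_apply] at this
      obtain ⟨r, hr⟩ : ∃ r, N₀ * (m + 1) = sy k * (q * m) + sb i + r := by
        refine Nat.exists_eq_add_of_le ?_
        have h3 := Finset.single_le_sum (f := sy) (fun j _ => Nat.zero_le _) (Finset.mem_univ k)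
        have h4 := Finset.single_le_sum (f := sb) (fun j _ => Nat.zero_le _) (Finset.mem_univ i)
        have h5 : sy k * (q * m) ≤ (q * ∑ c, sy c) * m := by
          rw [← mul_assoc, mul_comm (sy k) q]
          exact Nat.mul_le_mul_right _ (Nat.mul_le_mul_left _ h3)
        rw [hN₀]
        nlinarith
      show algebraMap S FA (c • x) ∈ V
      have e1 : algebraMap S FA (c • x) =
          ((f : FA) * y k ^ m) ^ q * ((y k)⁻¹ / t ^ sy k) ^ (q * m) *
            ((bS i : FA) / t ^ sb i) * t⁻¹ ^ r := by
        rw [Algebra.smul_def, map_mul, ← IsScalarTower.algebraMap_apply Kz S FA, hc, map_inv₀,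
          map_pow, ← IsScalarTower.algebraMap_apply P Kz FA,
          show algebraMap S FA x = (f : FA) ^ q * (bS i : FA) from rfl, hr, pow_add, pow_add,
          pow_mul, mul_pow, div_pow, inv_pow, inv_pow, ← pow_mul (y k) m q, mul_comm q m]
        have := hy k
        field_simp
        ring
      rw [e1]
      exact mul_mem (mul_mem (mul_mem (pow_mem hk _) (pow_mem h1 _)) h2) (pow_mem htinv _)
    obtain ⟨w, hw⟩ := IsIntegrallyClosed.isIntegral_iff.mp (Algebra.isIntegral_trace (L := Kz) hcR)
    have hv : v (c * algebraMap P Kz p) ≤ 1 := by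
      rw [hp, ← smul_eq_mul, ← map_smul, ← hw]
      exact w.2
    rw [map_mul, hc, map_inv₀, map_pow, degValF_algebraMap, degValF_algebraMap, degVal_apply hT0,
      degVal_apply hp0, ← WithZero.exp_nsmul, ← WithZero.exp_neg, ← WithZero.exp_add,
      ← WithZero.exp_zero, WithZero.exp_le_exp] at hv
    have hTn : (T.totalDegree : ℤ) ≤ 1 := by exact_mod_cast hTle
    simp only [nsmul_eq_mul] at hv
    have : (p.totalDegree : ℤ) ≤ (N₀ * (m + 1) : ℕ) :=
      le_trans (by linarith) (mul_le_of_le_one_right (Int.natCast_nonneg _) hTn)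
    exact_mod_cast this
  choose pf hpf hpf' using hpoly
  set D := N₀ * (m + 1)
  let ex : (Fin g → Fin (D + 1)) → (Fin g →₀ ℕ) := fun a =>
    Finsupp.equivFunOnFinite.symm fun l => (a l : ℕ)
  let Φ : W → (Fin e × (Fin g → Fin (D + 1)) → K) := fun f ia =>
    MvPolynomial.coeff (ex ia.2) (pf f ia.1)
  have hadd : ∀ f f' : W, Φ (f + f') = Φ f + Φ f' := fun f f' => funext fun ia => by
    have : pf (f + f') ia.1 = pf f ia.1 + pf f' ia.1 := by
      apply IsFractionRing.injective P Kz
      rw [map_add, hpf', hpf', hpf', ← map_add, ← add_mul]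
      exact congrArg (fun w : ↥S => Algebra.trace Kz ↥S (w * bS ia.1)) (Subtype.ext (hqadd _ _))
    show MvPolynomial.coeff _ _ = _
    rw [this, MvPolynomial.coeff_add]
    rfl
  have hsmul : ∀ (d : K) (f : W), Φ (d • f) = d ^ q • Φ f := fun d f => funext fun ia => by
    have : pf (d • f) ia.1 = d ^ q • pf f ia.1 := by
      apply IsFractionRing.injective P Kz
      rw [Algebra.smul_def, map_mul, ← IsScalarTower.algebraMap_apply, hpf', hpf',
        ← Algebra.smul_def, ← LinearMap.map_smul_of_tower]
      refine congrArg _ (Subtype.ext ?_)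
      show ((d • f : W) : FA) ^ q * (bS ia.1 : FA) = d ^ q • ((f : FA) ^ q * (bS ia.1 : FA))
      rw [Submodule.coe_smul, smul_pow, smul_mul_assoc]
    show MvPolynomial.coeff _ _ = _
    rw [this, MvPolynomial.coeff_smul]
    rfl
  have hΦ0 : ∀ f : W, Φ f = 0 → f = 0 := fun f hf => by
    have hp : ∀ i, pf f i = 0 := fun i => by
      ext a
      rw [MvPolynomial.coeff_zero]
      by_contra ha
      have hle : ∀ l, a l ≤ D := fun l => by
        refine le_trans ?_ (hpf f i)
        have hs : a ∈ (pf f i).support := MvPolynomial.mem_support_iff.mpr ha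
        refine le_trans ?_ (MvPolynomial.le_totalDegree hs)
        rcases eq_or_ne (a l) 0 with h0 | h0
        · omega
        · exact Finset.single_le_sum (fun j _ => Nat.zero_le (a j)) (Finsupp.mem_support_iff.mpr h0)
      have := congrFun hf (i, fun l => ⟨a l, Nat.lt_succ_of_le (hle l)⟩)
      simp only [Φ] at this
      rw [show ex (fun l => ⟨a l, Nat.lt_succ_of_le (hle l)⟩) = a from Finsupp.ext fun l => rfl] at this
      exact ha this
    have h0 := hdual ⟨(f : FA) ^ q, hqS _⟩ fun i => by rw [← hpf', hp, map_zero]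
    exact Subtype.ext (pow_eq_zero_iff hq0.ne' |>.mp (congrArg Subtype.val h0))
  have hB : ∀ s : Finset W, LinearIndependent K (fun i : s => (i : W)) →
      s.card ≤ e * (D + 1) ^ g := fun s hs => by
    have hli : LinearIndependent K (fun i : s => Φ i) := by
      refine Fintype.linearIndependent_iff.mpr fun c hc i => ?_
      choose d hd using fun j => IsAlgClosed.exists_pow_nat_eq (c j) hq0
      have h1 : Φ (∑ j : s, d j • (j : W)) = 0 := by
        have h0 : Φ 0 = 0 := by simpa [zero_pow hq0.ne'] using hsmul 0 0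
        let Ψ : W →+ _ := ⟨⟨Φ, h0⟩, hadd⟩
        show Ψ _ = 0
        rw [map_sum]
        refine (Finset.sum_congr rfl fun j _ => ?_).trans hc
        show Φ _ = _
        rw [hsmul, hd]
      have h2 := Fintype.linearIndependent_iff.mp hs d (hΦ0 _ h1) i
      rw [← hd i, h2, zero_pow hq0.ne']
    have := hli.fintype_card_le_finrank
    simpa [Module.finrank_fintype_fun_eq_card, Fintype.card_prod, Fintype.card_fun] using this
  have hrank : Module.rank K W ≤ (e * (D + 1) ^ g : ℕ) := rank_le hB
  haveI : FiniteDimensional K W :=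
    Module.rank_lt_aleph0_iff.mp (hrank.trans_lt (Cardinal.natCast_lt_aleph0))
  refine ⟨inferInstance, ?_⟩
  have h1 : Module.finrank K W ≤ e * (D + 1) ^ g := Module.finrank_le_of_rank_le hrank
  refine h1.trans ?_
  rw [mul_assoc, ← mul_pow]
  refine Nat.mul_le_mul_left _ (Nat.pow_le_pow_left ?_ _)
  rw [add_mul, one_mul]
  exact Nat.add_le_add_left (Nat.le_add_left 1 m) _

end Fermat.Agent.AbVar
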