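import Fermat.Agent.AbVar.Model

/-!
# Divisors as functions on valuation rings
-/

set_option autoImplicit false

noncomputable section

open scoped Classical

namespace Fermat.Agent.AbVar

universe u

/-- The valuation rings containing the constants. -/
abbrev Val (k F : Type u) [Field k] [Field F] [Algebra k F] : Type u :=
  {V : ValuationSubring F // ∀ c : k, algebraMap k F c ∈ V}

/-- The value group of a valuation ring, written additively. -/
def ValGrp {F : Type u} [Field F] (V : ValuationSubring F) : Type u :=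
  Additive (Fˣ ⧸ V.unitGroup)

instance {F : Type u} [Field F] (V : ValuationSubring F) : AddCommGroup (ValGrp V) :=
  inferInstanceAs (AddCommGroup (Additive (Fˣ ⧸ V.unitGroup)))

/-- The class of a unit of the field in the value group. -/
def valMk {F : Type u} [Field F] (V : ValuationSubring F) : Additive Fˣ →+ ValGrp V :=
  MonoidHom.toAdditive (QuotientGroup.mk' V.unitGroup)

/-- A divisor: at each valuation ring a nonzero element up to units. -/
abbrev CDiv (k F : Type u) [Field k] [Field F] [Algebra k F] : Type u :=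
  ∀ V : Val k F, ValGrp V.1

variable {k F : Type u} [Field k] [Field F] [Algebra k F]

/-- The class of an element at a valuation ring (zero for the element zero). -/
def vcls (V : ValuationSubring F) (x : F) : ValGrp V :=
  if h : x = 0 then 0 else valMk V (Additive.ofMul (Units.mk0 x h))

theorem vcls_units (V : ValuationSubring F) (x : Fˣ) :
    vcls V (x : F) = valMk V (Additive.ofMul x) := by
  rw [vcls, dif_neg x.ne_zero, Units.mk0_val]

theorem valMk_eq_zero_iff (V : ValuationSubring F) (x : Fˣ) :
    valMk V (Additive.ofMul x) = 0 ↔ x ∈ V.unitGroup :=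
  QuotientGroup.eq_one_iff x

theorem vcls_mul (V : ValuationSubring F) {x y : F} (hx : x ≠ 0) (hy : y ≠ 0) :
    vcls V (x * y) = vcls V x + vcls V y := by
  rw [vcls, dif_neg (mul_ne_zero hx hy), vcls, dif_neg hx, vcls, dif_neg hy, ← map_add,
    ← ofMul_mul, ← Units.mk0_mul]

/-- The divisor of an element. -/
def principal (k : Type u) {F : Type u} [Field k] [Field F] [Algebra k F] (t : F) : CDiv k F :=
  fun V => vcls V.1 t

/-- A positive multiple is principal. -/
def IsTorsionPrincipal (D : CDiv k F) : Prop :=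
  ∃ d : ℕ, 0 < d ∧ ∃ t : F, t ≠ 0 ∧ d • D = principal k t

/-- The Riemann–Roch space of a divisor. -/
def sections (D : CDiv k F) : Submodule k F where
  carrier := {f : F | ∀ V : Val k F, ∀ x : F, x ≠ 0 → D V = vcls V.1 x → f * x ∈ V.1}
  add_mem' := fun {a b} ha hb V x hx hD => by
    rw [add_mul]
    exact add_mem (ha V x hx hD) (hb V x hx hD)
  zero_mem' := fun V x _ _ => by
    rw [zero_mul]
    exact zero_mem V.1
  smul_mem' := fun c a ha V x hx hD => by
    rw [Algebra.smul_def, mul_assoc]
    exact mul_mem (V.2 c) (ha V x hx hD)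

namespace Model

variable {K : Type u} [Field K] (M : Model K) [Algebra K F]

theorem pt_injective {i : Fin (M.r + 1)} {φ ψ : M.O i →ₐ[K] F} (h : M.pt i φ = M.pt i ψ) :
    φ = ψ := by
  obtain ⟨χ, h1, h2⟩ := M.overlap φ ψ h
  exact h1.symm.trans h2

theorem gen_eq (i : Fin (M.r + 1)) : M.gen = M.pt i (M.O i).val :=
  M.glue (i := 0) (j := i) (M.O 0 ⊔ M.O i).val

theorem exists_chart_of_hom (σ : M.FA →ₐ[K] F) (V : Val K F) :
    ∃ i, ∀ a ∈ M.O i, σ a ∈ V.1 := by
  obtain ⟨i, φ, hφ, hpt⟩ := M.exists_chart V.1 V.2 (M.map σ M.gen)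
  rw [M.gen_eq i, M.map_pt] at hpt
  refine ⟨i, fun a ha => ?_⟩
  have := hφ ⟨a, ha⟩
  rwa [M.pt_injective hpt] at this

/-- The divisor pulled back along an embedding of the function field. -/
def pullDiv (σ : M.FA →ₐ[K] F) : CDiv K F :=
  fun V => vcls V.1 (σ (M.h (M.exists_chart_of_hom σ V).choose))

theorem negHom_injective : Function.Injective ((M.O 0).val.comp M.negChart) := by
  have h : M.negChart.comp M.negChart = AlgHom.id K (M.O 0) := by
    have h1 := M.neg_pt ((M.O 0).val.comp M.negChart)
    rw [← M.neg_pt (M.O 0).val, neg_neg, AlgHom.comp_assoc] at h1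
    refine AlgHom.ext fun a => Subtype.ext ?_
    exact (DFunLike.congr_fun (M.pt_injective h1) a).symm
  intro a b hab
  have hab' : M.negChart a = M.negChart b := Subtype.ext hab
  have := congrArg M.negChart hab'
  rwa [← AlgHom.comp_apply, ← AlgHom.comp_apply, h] at this

instance isFractionRing_chart (i : Fin (M.r + 1)) : IsFractionRing (M.O i) M.FA :=
  IsFractionRing.of_field _ _ fun x => by
    obtain ⟨a, ha, b, hb, -, rfl⟩ := M.frac i x
    exact ⟨⟨a, ha⟩, ⟨b, hb⟩, rfl⟩

/-- Inversion on the function field. -/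
def negHom : M.FA →ₐ[K] M.FA :=
  IsFractionRing.liftAlgHom (K := M.FA) M.negHom_injective

/-- The symmetric divisor pulled back along an embedding. -/
def symDiv (σ : M.FA →ₐ[K] F) : CDiv K F := M.pullDiv σ + M.pullDiv (σ.comp M.negHom)

/-- Pullback by multiplication by `n` multiplies the symmetric divisor by `n ^ 2`, up to torsion. -/
def IsQuadratic : Prop :=
  ∀ (n : ℕ) (σ : M.FA →ₐ[K] M.FA), 0 < n → M.IsMulField n σ →
    IsTorsionPrincipal (M.symDiv σ - n ^ 2 • M.symDiv (AlgHom.id K M.FA))

end Model

end Fermat.Agent.AbVar
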