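import Fermat.Agent.AbVar.Divisor

/-!
# Multiplication by `n` is separable

Torsion translations are automorphisms of the function field over the image of multiplication.
-/

set_option autoImplicit false

noncomputable section

open scoped Classical

namespace Fermat.Agent.AbVar

universe u

namespace Model

variable {K : Type u} [Field K] (M : Model K)

/-- An embedding of the function field is known by the image of the generic point. -/
theorem hom_ext_gen {F : Type u} [Field F] [Algebra K F] {σ τ : M.FA →ₐ[K] F}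
    (h : M.map σ M.gen = M.map τ M.gen) : σ = τ := by
  have h1 : M.map σ (M.pt 0 (M.O 0).val) = M.map τ (M.pt 0 (M.O 0).val) := h
  rw [M.map_pt, M.map_pt] at h1
  have h2 := M.pt_injective h1
  refine AlgHom.ext fun x => ?_
  obtain ⟨a, ha, b, hb, -, rfl⟩ := M.frac 0 x
  rw [map_div₀, map_div₀, show σ a = τ a from DFunLike.congr_fun h2 ⟨a, ha⟩,
    show σ b = τ b from DFunLike.congr_fun h2 ⟨b, hb⟩]

theorem isTranscendenceBasis_z_sep : IsTranscendenceBasis K fun l => (M.z l : M.FA) := by
  set B := Algebra.adjoin K (Set.range fun l => (M.z l : M.FA))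
  refine M.z_indep.isTranscendenceBasis_iff_isAlgebraic.mpr ⟨fun x => ?_⟩
  obtain ⟨a, ha, b, hb, -, rfl⟩ := M.frac 0 x
  rw [div_eq_mul_inv]
  exact (M.z_integral a ha).isAlgebraic.mul (IsAlgebraic.inv (M.z_integral b hb).isAlgebraic)

theorem trdeg_eq : Algebra.trdeg K M.FA = M.g := by
  have := (M.isTranscendenceBasis_z_sep).lift_cardinalMk_eq_trdeg
  simpa using this.symm

/-- A chart map whose image generates the function field is injective. -/
theorem injective_of_adjoin_eq_top {i : Fin (M.r + 1)} (φ : M.O i →ₐ[K] M.FA)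
    (h : IntermediateField.adjoin K (Set.range φ) = ⊤) : Function.Injective φ := by
  haveI : IsFractionRing φ.range M.FA := IsFractionRing.of_field _ _ fun x => by
    obtain ⟨r, hr, s, hs, rfl⟩ := IntermediateField.mem_adjoin_iff_div.mp
      (h.symm ▸ IntermediateField.mem_top : x ∈ IntermediateField.adjoin K (Set.range φ))
    rw [← AlgHom.coe_range, Algebra.adjoin_eq] at hr hs
    exact ⟨⟨r, hr⟩, ⟨s, hs⟩, rfl⟩
  haveI : Algebra.IsAlgebraic φ.range M.FA :=
    ⟨fun x => (IsFractionRing.isAlgebraic_iff φ.range M.FA M.FA).mpr (isAlgebraic_algebraMap x)⟩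
  haveI : Algebra.IsAlgebraic (Algebra.adjoin K (φ.range : Set M.FA)) M.FA := by
    rw [Algebra.adjoin_eq]; infer_instance
  obtain ⟨t, htsub, ht⟩ := exists_isTranscendenceBasis_subset (R := K) (φ.range : Set M.FA)
  have hfin : Cardinal.mk t = (M.g : Cardinal) := ht.cardinalMk_eq_trdeg.trans M.trdeg_eq
  haveI : Finite t := Cardinal.mk_lt_aleph0_iff.mp (hfin ▸ Cardinal.natCast_lt_aleph0)
  choose a ha using fun x : t => htsub x.2
  have ha' : AlgebraicIndependent K fun x => (a x : M.FA) := by
    refine AlgebraicIndependent.map' ?_ (f := (M.O i).val) Subtype.val_injective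
    refine AlgebraicIndependent.of_comp φ ?_
    convert ht.1 using 1
    exact funext fun x => ha x
  have hbasis : IsTranscendenceBasis K fun x => (a x : M.FA) :=
    AlgebraicIndependent.isTranscendenceBasis_of_trdeg_le_of_finite ha' (by rw [M.trdeg_eq, hfin])
  letI : Algebra (MvPolynomial t K) (M.O i) := (MvPolynomial.aeval a).toRingHom.toAlgebra
  letI : Algebra (MvPolynomial t K) M.FA :=
    ((M.O i).val.comp (MvPolynomial.aeval a)).toRingHom.toAlgebra
  haveI : IsScalarTower (MvPolynomial t K) (M.O i) M.FA := IsScalarTower.of_algebraMap_eq fun _ => rfl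
  rw [injective_iff_map_eq_zero]
  intro x hx
  by_contra hne
  have halg : IsAlgebraic (MvPolynomial t K) x := by
    have h1 : IsAlgebraic (Algebra.adjoin K (Set.range fun x => (a x : M.FA))) (x : M.FA) :=
      hbasis.isAlgebraic.isAlgebraic _
    let e : Algebra.adjoin K (Set.range fun x => (a x : M.FA)) ≃ₐ[K] MvPolynomial t K :=
      ha'.aevalEquiv.symm
    refine (isAlgebraic_algebraMap_iff (A := M.FA) Subtype.val_injective).mp ?_
    refine h1.of_ringHom_of_comp_eq e.symm.toRingEquiv.toRingHom (RingHom.id M.FA) ?_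
      Function.injective_id ?_
    · exact e.symm.toRingEquiv.surjective
    · refine RingHom.ext fun p => ?_
      show ((e.symm p : Algebra.adjoin K (Set.range fun x => (a x : M.FA))) : M.FA) =
        ((MvPolynomial.aeval a p : M.O i) : M.FA)
      rw [show e.symm = ha'.aevalEquiv from AlgEquiv.symm_symm _]
      exact (ha'.algebraMap_aevalEquiv p).trans
        (DFunLike.congr_fun (MvPolynomial.comp_aeval (f := a) (M.O i).val) p).symm
  obtain ⟨r, hr, y, hy⟩ := halg.exists_nonzero_dvd (mem_nonZeroDivisors_of_ne_zero hne)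
  refine hr (ht.1 ?_)
  rw [map_zero]
  have h2 : φ (MvPolynomial.aeval a r) = 0 := by
    rw [show MvPolynomial.aeval a r = x * y from hy, map_mul, hx, zero_mul]
  rw [← AlgHom.comp_apply, MvPolynomial.comp_aeval] at h2
  rw [← h2]
  exact congrArg (fun f => MvPolynomial.aeval f r) (funext fun x => (ha x).symm)

/-- The constant points embed. -/
theorem map_const_injective :
    Function.Injective (M.map (Algebra.ofId K M.FA) : M.Pt K →+ M.Pt M.FA) := by
  intro P P' h
  obtain ⟨i, φ, -, rfl⟩ := M.exists_chart (⊤ : ValuationSubring K) (fun _ => trivial) P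
  obtain ⟨j, ψ, -, rfl⟩ := M.exists_chart (⊤ : ValuationSubring K) (fun _ => trivial) P'
  rw [M.map_pt, M.map_pt] at h
  obtain ⟨χ, hφ, hψ⟩ := M.overlap _ _ h
  have hrange : ∀ x, χ x ∈ (Algebra.ofId K M.FA).range := by
    have hle : (⊤ : Subalgebra K ↥(M.O i ⊔ M.O j)) ≤ (Algebra.ofId K M.FA).range.comap χ := by
      rintro ⟨x, hx⟩ -
      have hS : M.O i ⊔ M.O j ≤ ((Algebra.ofId K M.FA).range.comap χ).map (M.O i ⊔ M.O j).val := by
        refine sup_le (fun a ha => ⟨⟨a, le_sup_left (b := M.O j) ha⟩, ?_, rfl⟩)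
          fun a ha => ⟨⟨a, le_sup_right (a := M.O i) ha⟩, ?_, rfl⟩
        · exact ⟨φ ⟨a, ha⟩, (DFunLike.congr_fun hφ ⟨a, ha⟩).symm⟩
        · exact ⟨ψ ⟨a, ha⟩, (DFunLike.congr_fun hψ ⟨a, ha⟩).symm⟩
      obtain ⟨w, hw, hwx⟩ := hS hx
      rwa [show w = ⟨x, hx⟩ from Subtype.ext hwx] at hw
    exact fun x => hle (Algebra.mem_top (x := x))
  let e := AlgEquiv.ofInjective (Algebra.ofId K M.FA) (algebraMap K M.FA).injective
  let χ₀ : ↥(M.O i ⊔ M.O j) →ₐ[K] K := e.symm.toAlgHom.comp (χ.codRestrict _ hrange)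
  have hχ : ∀ x, algebraMap K M.FA (χ₀ x) = χ x := fun x =>
    congrArg Subtype.val (e.apply_symm_apply ⟨χ x, hrange x⟩)
  have h1 : χ₀.comp (Subalgebra.inclusion le_sup_left) = φ := AlgHom.ext fun a =>
    (algebraMap K M.FA).injective ((hχ _).trans (DFunLike.congr_fun hφ a))
  have h2 : χ₀.comp (Subalgebra.inclusion le_sup_right) = ψ := AlgHom.ext fun a =>
    (algebraMap K M.FA).injective ((hχ _).trans (DFunLike.congr_fun hψ a))
  rw [← h1, ← h2]
  exact M.glue χ₀

/-- Translation by a constant point. -/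
theorem exists_translation (P : M.Pt K) :
    ∃ τ : M.FA →ₐ[K] M.FA, M.map τ M.gen = M.gen + M.map (Algebra.ofId K M.FA) P := by
  obtain ⟨i, φ, -, hpt⟩ := M.exists_chart (⊤ : ValuationSubring M.FA) (fun _ => trivial)
    (M.gen + M.map (Algebra.ofId K M.FA) P)
  set F' := IntermediateField.adjoin K (Set.range φ)
  let φ' : M.O i →ₐ[K] F' := φ.codRestrict F'.toSubalgebra
    fun a => IntermediateField.subset_adjoin K _ ⟨a, rfl⟩
  set R := M.pt i φ' - M.map (Algebra.ofId K F') P
  have hR : M.map F'.val R = M.gen := by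
    rw [map_sub, M.map_pt, M.map_map, show F'.val.comp φ' = φ from rfl, hpt,
      show F'.val.comp (Algebra.ofId K F') = Algebra.ofId K M.FA from Subsingleton.elim _ _,
      add_sub_cancel_right]
  obtain ⟨j, ψ, -, hψ⟩ := M.exists_chart (⊤ : ValuationSubring F') (fun _ => trivial) R
  rw [← hψ, M.map_pt, M.gen_eq j] at hR
  have hO : ∀ a ∈ M.O j, a ∈ F' := fun a ha => by
    have h1 := DFunLike.congr_fun (M.pt_injective hR) ⟨a, ha⟩
    rw [← show ((ψ ⟨a, ha⟩ : F') : M.FA) = a from h1]
    exact SetLike.coe_mem _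
  have htop : F' = ⊤ := eq_top_iff.mpr fun x _ => by
    obtain ⟨a, ha, b, hb, -, rfl⟩ := M.frac j x
    exact div_mem (hO a ha) (hO b hb)
  refine ⟨IsFractionRing.liftAlgHom (g := φ) (M.injective_of_adjoin_eq_top φ htop), ?_⟩
  rw [M.gen_eq i, M.map_pt, ← M.gen_eq i, ← hpt]
  exact congrArg _ (AlgHom.ext fun a =>
    IsFractionRing.lift_algebraMap (A := M.O i) (K := M.FA) (M.injective_of_adjoin_eq_top φ htop) a)

/-- Multiplication by `n` is separable when its degree is the number of torsion points. -/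
theorem isSeparable_of_card {n : ℕ} {σ : M.FA →ₐ[K] M.FA} (hσ : M.IsMulField n σ)
    [FiniteDimensional σ.fieldRange M.FA]
    (hcard : Nat.card {P : M.Pt K // n • P = 0} = Module.finrank σ.fieldRange M.FA) :
    Algebra.IsSeparable σ.fieldRange M.FA := by
  haveI : Finite {P : M.Pt K // n • P = 0} :=
    Nat.finite_of_card_ne_zero (hcard ▸ Module.finrank_pos.ne')
  choose τ hτ using fun P : {P : M.Pt K // n • P = 0} => M.exists_translation P.1
  have hfix : ∀ P, (τ P).comp σ = σ := fun P => M.hom_ext_gen (by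
    rw [← M.map_map, ← hσ, map_nsmul, hτ, nsmul_add, ← map_nsmul, P.2, map_zero, add_zero])
  let T : {P : M.Pt K // n • P = 0} → (M.FA →ₐ[σ.fieldRange] M.FA) := fun P =>
    { (τ P).toRingHom with
      commutes' := fun c => by
        obtain ⟨x, hx⟩ := c.2
        show τ P (c : M.FA) = (c : M.FA)
        rw [← hx]
        exact DFunLike.congr_fun (hfix P) x }
  have hT : Function.Injective T := fun P P' h => by
    refine Subtype.ext (M.map_const_injective (add_left_cancel (a := M.gen) ?_))
    rw [← hτ, ← hτ, show τ P = τ P' from AlgHom.ext fun x => DFunLike.congr_fun h x]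
  have hle : Module.finrank σ.fieldRange M.FA ≤ Nat.card Gal(M.FA/σ.fieldRange) := by
    rw [← hcard, Nat.card_congr (algEquivEquivAlgHom σ.fieldRange M.FA).toEquiv]
    exact Nat.card_le_card_of_injective T hT
  have hge : Nat.card Gal(M.FA/σ.fieldRange) ≤ Module.finrank σ.fieldRange M.FA := by
    rw [Nat.card_eq_fintype_card]
    exact AlgEquiv.card_le
  haveI := IsGalois.of_card_aut_eq_finrank σ.fieldRange M.FA (le_antisymm hge hle)
  infer_instance

end Model

end Fermat.Agent.AbVar
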