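import Fermat.Agent.AbVar.GrowthSections
import Fermat.Agent.AbVar.GrowthSep

/-!
# The number of torsion points from the growth of sections

Comparison of the sections of the divisor and of its pullback by multiplication, in both
directions, then powers of `n`.
-/

set_option autoImplicit false

noncomputable section

open scoped Classical

namespace Fermat.Agent.AbVar

universe u

namespace Model

variable {K : Type u} [Field K] [IsAlgClosed K] (M : Model K)

/-- The composition law of multiplication maps. -/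
theorem isMulField_comp {n m : ℕ} {σ τ : M.FA →ₐ[K] M.FA} (hσ : M.IsMulField n σ)
    (hτ : M.IsMulField m τ) : M.IsMulField (n * m) (τ.comp σ) := by
  show (n * m) • M.gen = _
  rw [← M.map_map, ← hσ, map_nsmul, ← hτ, mul_nsmul']

theorem isMulField_one : M.IsMulField 1 (AlgHom.id K M.FA) := by
  show 1 • M.gen = _
  rw [one_nsmul, M.map_id]

variable {n : ℕ} {σ : M.FA →ₐ[K] M.FA}

/-- The pullback of the divisor has as many sections as its multiple by `n ^ 2`. -/
theorem exists_secs_equiv (hq : M.IsQuadratic) (hn : 0 < n) (hσ : M.IsMulField n σ) :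
    ∃ N : ℕ, 0 < N ∧ ∀ k, Nonempty
      (M.secs σ (N * k) ≃ₗ[K] M.secs (AlgHom.id K M.FA) (n ^ 2 * (N * k))) := by
  obtain ⟨N, hN, t, ht, e⟩ := hq n σ hn hσ
  refine ⟨N, hN, fun k => ?_⟩
  have key : ∀ (V : Val K M.FA) (i j i' j' : Fin (M.r + 1)), M.ChartsAt σ V.1 i j →
      M.ChartsAt (AlgHom.id K M.FA) V.1 i' j' → ∀ f : M.FA,
      (f * σ (M.hs i j) ^ (N * k) ∈ V.1 ↔
        f * t ^ k * M.hs i' j' ^ (n ^ 2 * (N * k)) ∈ V.1) := by
    intro V i j i' j' h h' f
    have hA : σ (M.hs i j) ^ (N * k) ≠ 0 := pow_ne_zero _ ((map_ne_zero σ).mpr (M.hs_ne i j))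
    have hB : t ^ k * M.hs i' j' ^ (n ^ 2 * (N * k)) ≠ 0 :=
      mul_ne_zero (pow_ne_zero _ ht) (pow_ne_zero _ (M.hs_ne i' j'))
    have h2 : (k • (N • (M.symDiv σ - n ^ 2 • M.symDiv (AlgHom.id K M.FA)))) V =
        k • vcls V.1 t := by rw [e]; rfl
    rw [smul_smul, nsmul_sub, smul_smul, Pi.sub_apply, M.symDiv_eq σ V h,
      M.symDiv_eq _ V h', ← vcls_pow_nat _ ht, AlgHom.id_apply, sub_eq_iff_eq_add,
      ← vcls_mul _ (pow_ne_zero _ ht) (pow_ne_zero _ (M.hs_ne i' j')),
      show k * N * n ^ 2 = n ^ 2 * (N * k) by ring, mul_comm k N] at h2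
    obtain ⟨hab, hba⟩ := (vcls_eq_iff V.1 hA hB).mp h2
    constructor
    · intro hf
      have := mul_mem hf hba
      rwa [mul_assoc, mul_div_cancel₀ _ hA, ← mul_assoc] at this
    · intro hf
      rw [mul_assoc] at hf
      have := mul_mem hf hab
      rwa [mul_assoc, mul_div_cancel₀ _ hB] at this
  have hmem : ∀ f, f ∈ M.secs σ (N * k) ↔
      f * t ^ k ∈ M.secs (AlgHom.id K M.FA) (n ^ 2 * (N * k)) := by
    intro f
    refine ⟨fun hf => M.mem_secs.mpr fun V i' j' h' => ?_, fun hf => M.mem_secs.mpr fun V i j h => ?_⟩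
    · obtain ⟨i, j, h⟩ := M.exists_chartsAt σ V
      exact (key V i j i' j' h h' f).mp (M.mem_secs.mp hf V i j h)
    · obtain ⟨i', j', h'⟩ := M.exists_chartsAt (AlgHom.id K M.FA) V
      exact (key V i j i' j' h h' f).mpr (M.mem_secs.mp hf V i' j' h')
  have htk : t ^ k ≠ 0 := pow_ne_zero _ ht
  exact ⟨{
    toFun := fun f => ⟨f.1 * t ^ k, (hmem _).mp f.2⟩
    map_add' := fun f f' => Subtype.ext (add_mul _ _ _)
    map_smul' := fun c f => Subtype.ext (smul_mul_assoc _ _ _)
    invFun := fun f => ⟨f.1 / t ^ k, (hmem _).mpr (by rw [div_mul_cancel₀ _ htk]; exact f.2)⟩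
    left_inv := fun f => Subtype.ext (mul_div_cancel_right₀ _ htk)
    right_inv := fun f => Subtype.ext (div_mul_cancel₀ _ htk) }⟩

/-- Sections pulled back along `σ`. -/
theorem map_mem_secs {m : ℕ} {f : M.FA} (hf : f ∈ M.secs (AlgHom.id K M.FA) m) :
    σ f ∈ M.secs σ m := by
  refine M.mem_secs.mpr fun V i j h => ?_
  let W : Val K M.FA := ⟨V.1.comap σ.toRingHom, fun c => by
    show σ (algebraMap K M.FA c) ∈ V.1
    rw [AlgHom.commutes]
    exact V.2 c⟩
  have h1 : f * M.hs i j ^ m ∈ W.1 :=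
    M.mem_secs.mp hf W i j ⟨fun a ha => h.fst a ha, fun a ha => h.snd a ha⟩
  rw [← map_pow, ← map_mul]
  exact h1

variable [FiniteDimensional σ.fieldRange M.FA]

set_option maxHeartbeats 1000000 in
/-- Independence over the image gives the inequality in one direction. -/
theorem exists_finrank_mul_le : ∃ j : ℕ, ∀ m : ℕ,
    FiniteDimensional K (M.secs σ (m + j)) → FiniteDimensional K (M.secs (AlgHom.id K M.FA) m) →
      Module.finrank σ.fieldRange M.FA * Module.finrank K (M.secs (AlgHom.id K M.FA) m) ≤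
        Module.finrank K (M.secs σ (m + j)) := by
  let φ : M.O 0 →ₐ[K] σ.fieldRange :=
    (σ.comp (M.O 0).val).codRestrict σ.fieldRange.toSubalgebra fun a => ⟨a, rfl⟩
  letI : Algebra (M.O 0) σ.fieldRange := φ.toRingHom.toAlgebra
  letI : Algebra (M.O 0) M.FA := (σ.comp (M.O 0).val).toRingHom.toAlgebra
  letI : SMul (M.O 0) M.FA := Algebra.toSMul
  haveI : IsScalarTower (M.O 0) σ.fieldRange M.FA := IsScalarTower.of_algebraMap_eq fun _ => rfl
  haveI : IsFractionRing (M.O 0) σ.fieldRange := by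
    haveI : FaithfulSMul (M.O 0) σ.fieldRange :=
      (faithfulSMul_iff_algebraMap_injective _ _).mpr fun a b hab =>
        Subtype.ext (σ.toRingHom.injective (congrArg Subtype.val hab))
    refine IsFractionRing.of_field _ _ fun y => ?_
    obtain ⟨x, hx⟩ := y.2
    obtain ⟨a, ha, b, hb, -, rfl⟩ := M.frac 0 x
    exact ⟨⟨a, ha⟩, ⟨b, hb⟩, Subtype.ext (hx.symm.trans (map_div₀ σ a b))⟩
  let b₀ := Module.finBasis σ.fieldRange M.FA
  have hm : ∀ l, ∃ s : M.O 0, s ≠ 0 ∧ IsIntegral (M.O 0) (s • b₀ l) := fun l => by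
    obtain ⟨s, hs0, hs⟩ := exists_integral_multiples (M.O 0) σ.fieldRange (L := M.FA) {b₀ l}
    exact ⟨s, hs0, hs _ (Finset.mem_singleton_self _)⟩
  choose s hs0 hs using hm
  let ω := b₀.unitsSMul fun l => Units.mk0 (algebraMap (M.O 0) σ.fieldRange (s l))
    ((map_ne_zero_iff _ (IsFractionRing.injective (M.O 0) σ.fieldRange)).mpr (hs0 l))
  have hω : ∀ l, IsIntegral (M.O 0) (ω l) := fun l => by
    rw [Module.Basis.unitsSMul_apply, Units.smul_def, Units.val_mk0]
    exact hs l
  choose p hp hp' using hω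
  choose e he using fun l => M.exists_mem_secs_of_root σ (p l) (hp l) (x := ω l) (hp' l)
  refine ⟨∑ l, e l, fun m hfin hfin' => ?_⟩
  haveI := hfin
  haveI := hfin'
  let bf := Module.finBasis K (M.secs (AlgHom.id K M.FA) m)
  let fam : Fin (Module.finrank σ.fieldRange M.FA) ×
      Fin (Module.finrank K (M.secs (AlgHom.id K M.FA) m)) → M.secs σ (m + ∑ l, e l) := fun lk =>
    ⟨σ (bf lk.2 : M.FA) * ω lk.1, M.secs_mono (Nat.add_le_add_left
      (Finset.single_le_sum (fun _ _ => Nat.zero_le _) (Finset.mem_univ _)) _)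
      (M.mul_mem_secs (M.map_mem_secs (bf lk.2).2) (he lk.1))⟩
  have hli : LinearIndependent K fam := by
    refine LinearIndependent.of_comp (Submodule.subtype _) (Fintype.linearIndependent_iff.mpr ?_)
    intro c hc lk
    let y : Fin (Module.finrank σ.fieldRange M.FA) → M.FA := fun l =>
      ∑ k, c (l, k) • (bf k : M.FA)
    have hy : ∑ l, (⟨σ (y l), y l, rfl⟩ : σ.fieldRange) • ω l = 0 := by
      rw [← hc, Fintype.sum_prod_type]
      refine Finset.sum_congr rfl fun l _ => ?_
      show σ (y l) * ω l = _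
      simp only [y, map_sum, map_smul, Finset.sum_mul, smul_mul_assoc]
      rfl
    have h0 := Fintype.linearIndependent_iff.mp ω.linearIndependent _ hy lk.1
    have h1 : y lk.1 = 0 := σ.toRingHom.injective ((congrArg Subtype.val h0).trans (map_zero σ).symm)
    have h2 : ∑ k, c (lk.1, k) • bf k = 0 := Subtype.ext (by simpa [y] using h1)
    exact Fintype.linearIndependent_iff.mp bf.linearIndependent _ h2 lk.2
  simpa [Fintype.card_prod] using hli.fintype_card_le_finrank

set_option maxHeartbeats 1000000 in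
/-- Traces give the inequality in the other direction. -/
theorem exists_finrank_le_mul [Algebra.IsSeparable σ.fieldRange M.FA] : ∃ j : ℕ, ∀ m : ℕ,
    FiniteDimensional K (M.secs σ m) → FiniteDimensional K (M.secs (AlgHom.id K M.FA) (m + j)) →
      Module.finrank K (M.secs σ m) ≤
        Module.finrank σ.fieldRange M.FA * Module.finrank K (M.secs (AlgHom.id K M.FA) (m + j)) := by
  let φ : M.O 0 →ₐ[K] σ.fieldRange :=
    (σ.comp (M.O 0).val).codRestrict σ.fieldRange.toSubalgebra fun a => ⟨a, rfl⟩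
  letI : Algebra (M.O 0) σ.fieldRange := φ.toRingHom.toAlgebra
  letI : Algebra (M.O 0) M.FA := (σ.comp (M.O 0).val).toRingHom.toAlgebra
  letI : SMul (M.O 0) M.FA := Algebra.toSMul
  haveI : IsScalarTower (M.O 0) σ.fieldRange M.FA := IsScalarTower.of_algebraMap_eq fun _ => rfl
  haveI : IsFractionRing (M.O 0) σ.fieldRange := by
    haveI : FaithfulSMul (M.O 0) σ.fieldRange :=
      (faithfulSMul_iff_algebraMap_injective _ _).mpr fun a b hab =>
        Subtype.ext (σ.toRingHom.injective (congrArg Subtype.val hab))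
    refine IsFractionRing.of_field _ _ fun y => ?_
    obtain ⟨x, hx⟩ := y.2
    obtain ⟨a, ha, b, hb, -, rfl⟩ := M.frac 0 x
    exact ⟨⟨a, ha⟩, ⟨b, hb⟩, Subtype.ext (hx.symm.trans (map_div₀ σ a b))⟩
  let b₀ := Module.finBasis σ.fieldRange M.FA
  have hm : ∀ l, ∃ s : M.O 0, s ≠ 0 ∧ IsIntegral (M.O 0) (s • b₀ l) := fun l => by
    obtain ⟨s, hs0, hs⟩ := exists_integral_multiples (M.O 0) σ.fieldRange (L := M.FA) {b₀ l}
    exact ⟨s, hs0, hs _ (Finset.mem_singleton_self _)⟩
  choose s hs0 hs using hm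
  let ω := b₀.unitsSMul fun l => Units.mk0 (algebraMap (M.O 0) σ.fieldRange (s l))
    ((map_ne_zero_iff _ (IsFractionRing.injective (M.O 0) σ.fieldRange)).mpr (hs0 l))
  have hω : ∀ l, IsIntegral (M.O 0) (ω l) := fun l => by
    rw [Module.Basis.unitsSMul_apply, Units.smul_def, Units.val_mk0]
    exact hs l
  choose p hp hp' using hω
  choose e he using fun l => M.exists_mem_secs_of_root σ (p l) (hp l) (x := ω l) (hp' l)
  refine ⟨∑ l, e l, fun m hfin hfin' => ?_⟩
  haveI := hfin
  haveI := hfin'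
  -- the trace coordinates
  have hu : ∀ x ∈ M.secs σ (m + ∑ l, e l), ∀ u : M.FA,
      (σ u = (Algebra.trace σ.fieldRange M.FA x : M.FA)) →
        u ∈ M.secs (AlgHom.id K M.FA) (m + ∑ l, e l) := by
    intro x hx u hu
    refine M.mem_secs.mpr fun W i j h => ?_
    obtain ⟨p, hp, hp'⟩ : ∃ p : Polynomial W.1, p.Monic ∧
        σ.toRingHom (Polynomial.eval₂ W.1.subtype (u * M.hs i j ^ (m + ∑ l, e l)) p) = 0 := by
      let θ : W.1 →+* σ.fieldRange := (σ.rangeRestrict.toRingHom).comp W.1.subtype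
      letI : Algebra W.1 σ.fieldRange := θ.toAlgebra
      letI : Algebra W.1 M.FA := (σ.toRingHom.comp W.1.subtype).toAlgebra
      haveI : IsScalarTower W.1 σ.fieldRange M.FA := IsScalarTower.of_algebraMap_eq fun _ => rfl
      set c : σ.fieldRange := ⟨σ (M.hs i j) ^ (m + ∑ l, e l), M.hs i j ^ (m + ∑ l, e l), map_pow σ _ _⟩
      have hint : IsIntegral W.1 (c • x) := by
        refine isIntegral_of_forall_mem fun V hV => ?_
        have hVc : ∀ a : K, algebraMap K M.FA a ∈ V := fun a => by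
          have := hV ⟨_, W.2 a⟩
          rwa [show algebraMap W.1 M.FA ⟨_, W.2 a⟩ = σ (algebraMap K M.FA a) from rfl,
            AlgHom.commutes] at this
        have h1 := M.mem_secs.mp hx ⟨V, hVc⟩ i j
          ⟨fun a ha => hV ⟨a, h.fst a ha⟩, fun a ha => hV ⟨M.negHom a, h.snd a ha⟩⟩
        rw [Algebra.smul_def, mul_comm]
        exact h1
      obtain ⟨p, hp, hp'⟩ := Algebra.isIntegral_trace (L := σ.fieldRange) hint
      rw [map_smul, smul_eq_mul] at hp'
      refine ⟨p, hp, ?_⟩
      have h2 := congrArg σ.fieldRange.val.toRingHom hp'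
      rw [map_zero, Polynomial.hom_eval₂] at h2
      rw [Polynomial.hom_eval₂]
      refine Eq.trans ?_ h2
      congr 1
      show σ (u * M.hs i j ^ (m + ∑ l, e l)) = _
      rw [map_mul, map_pow, hu, mul_comm]
      rfl
    have hint2 : IsIntegral W.1 (u * M.hs i j ^ (m + ∑ l, e l)) :=
      ⟨p, hp, σ.toRingHom.injective (hp'.trans (map_zero _).symm)⟩
    obtain ⟨y, hy⟩ := IsIntegrallyClosed.isIntegral_iff.mp hint2
    have hmem : u * M.hs i j ^ (m + ∑ l, e l) ∈ W.1 := hy ▸ y.2
    simpa using hmem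
  have hfm : ∀ (f : M.secs σ m) l, (f : M.FA) * ω l ∈ M.secs σ (m + ∑ l, e l) := fun f l =>
    M.secs_mono (Nat.add_le_add_left
      (Finset.single_le_sum (fun _ _ => Nat.zero_le _) (Finset.mem_univ _)) _)
      (M.mul_mem_secs f.2 (he l))
  choose u hu' using fun (f : M.secs σ m) l =>
    (Algebra.trace σ.fieldRange M.FA ((f : M.FA) * ω l)).2
  replace hu' : ∀ f l, σ (u f l) =
      (Algebra.trace σ.fieldRange M.FA ((f : M.FA) * ω l) : M.FA) := hu'
  let Φ : M.secs σ m →ₗ[K] (Fin (Module.finrank σ.fieldRange M.FA) →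
      M.secs (AlgHom.id K M.FA) (m + ∑ l, e l)) :=
    { toFun := fun f l => ⟨u f l, hu _ (hfm f l) _ (hu' f l)⟩
      map_add' := fun f f' => funext fun l => Subtype.ext (σ.toRingHom.injective (by
        show σ (u (f + f') l) = σ (u f l + u f' l)
        rw [map_add, hu', hu', hu', ← σ.fieldRange.coe_add, ← map_add]
        simp [add_mul]))
      map_smul' := fun c f => funext fun l => Subtype.ext (σ.toRingHom.injective (by
        show σ (u (c • f) l) = σ (c • u f l)
        rw [map_smul, hu', hu', ← IntermediateField.coe_smul, ← LinearMap.map_smul_of_tower]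
        simp [smul_mul_assoc])) }
  have hΦ : Function.Injective Φ := by
    refine (injective_iff_map_eq_zero _).mpr fun f hf => Subtype.ext ?_
    refine (traceForm_nondegenerate σ.fieldRange M.FA).1 _ fun y => ?_
    rw [← ω.sum_repr y, map_sum]
    refine Finset.sum_eq_zero fun l _ => ?_
    rw [map_smul, Algebra.traceForm_apply]
    have h0 : u f l = 0 := congrArg Subtype.val (congrFun hf l)
    have : Algebra.trace σ.fieldRange M.FA ((f : M.FA) * ω l) = 0 :=
      Subtype.ext ((hu' f l).symm.trans (by rw [h0]; exact map_zero σ))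
    rw [this, smul_zero]
  have := LinearMap.finrank_le_finrank_of_injective hΦ
  simpa [Module.finrank_pi_fintype] using this

end Model

/-- The degree is squeezed by the two bounds. -/
theorem eq_of_pow_bounds {a b C : ℕ} (ha : 0 < a) (hb : 0 < b) (h₁ : ∀ k, b ^ k ≤ C * a ^ k)
    (h₂ : ∀ k, a ^ k ≤ C * b ^ k) : b = a := by
  have key : ∀ {x y : ℕ}, 0 < x → (∀ k, y ^ k ≤ C * x ^ k) → y ≤ x := by
    intro x y hx h
    by_contra hlt
    have step : ∀ j, x ^ j * (x + j) ≤ x * (x + 1) ^ j := fun j => by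
      induction j with
      | zero => simp
      | succ j ih =>
        calc x ^ (j + 1) * (x + (j + 1)) = x ^ j * (x * (x + (j + 1))) := by ring
          _ ≤ x ^ j * ((x + 1) * (x + j)) := Nat.mul_le_mul_left _ (by nlinarith)
          _ = (x + 1) * (x ^ j * (x + j)) := by ring
          _ ≤ (x + 1) * (x * (x + 1) ^ j) := Nat.mul_le_mul_left _ ih
          _ = x * (x + 1) ^ (j + 1) := by ring
    set j := x * C + 1
    have h1 : x ^ j * (x + j) ≤ x ^ j * (x * C) :=
      calc x ^ j * (x + j) ≤ x * (x + 1) ^ j := step j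
        _ ≤ x * (C * x ^ j) :=
          Nat.mul_le_mul_left _ ((Nat.pow_le_pow_left (by omega) j).trans (h j))
        _ = x ^ j * (x * C) := by ring
    have := Nat.le_of_mul_le_mul_left h1 (pow_pos hx j)
    omega
  exact le_antisymm (key ha h₁) (key hb h₂)

variable {K : Type u} [Field K]

set_option maxHeartbeats 1000000 in
/-- The torsion count from quadraticity and the degree of multiplication. -/
theorem natCard_torsion [IsAlgClosed K] (M : Model K) (hq : M.IsQuadratic) (hd : M.HasDegree)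
    (n : ℕ) (hn : (n : K) ≠ 0) :
    Nat.card {P : M.Pt K // n • P = 0} = n ^ (2 * M.g) := by
  obtain ⟨C₀, hC₀⟩ := M.exists_secs_le
  obtain ⟨A, hA, hlow⟩ := M.exists_le_secs
  -- bounds for one multiplication map
  have hbound : ∀ (n : ℕ) (σ : M.FA →ₐ[K] M.FA), (n : K) ≠ 0 → M.IsMulField n σ →
      Module.finrank σ.fieldRange M.FA ≤ C₀ * (8 * A) ^ M.g * n ^ (2 * M.g) ∧
        n ^ (2 * M.g) ≤ C₀ * (8 * A) ^ M.g * Module.finrank σ.fieldRange M.FA := by
    intro n σ hn hσ
    obtain ⟨σ', hσ', hfin, hcard⟩ := hd n hn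
    obtain rfl : σ = σ' := M.hom_ext_gen (hσ.symm.trans hσ')
    haveI := hfin
    haveI := M.isSeparable_of_card hσ hcard
    have hn0 : 0 < n := Nat.pos_of_ne_zero (fun h => hn (by rw [h, Nat.cast_zero]))
    obtain ⟨N, hN, hiso⟩ := M.exists_secs_equiv hq hn0 hσ
    obtain ⟨j₁, hj₁⟩ := M.exists_finrank_mul_le (σ := σ)
    obtain ⟨j₂, hj₂⟩ := M.exists_finrank_le_mul (σ := σ)
    set d := Module.finrank σ.fieldRange M.FA
    set j := j₁ + j₂ + 1
    set t := 2 * N * j with ht
    have hNt : ∃ k, A * t = N * k := ⟨2 * j * A, by rw [ht]; ring⟩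
    obtain ⟨k, hk⟩ := hNt
    obtain ⟨iso⟩ := hiso k
    rw [← hk] at iso
    haveI := (hC₀ (n ^ 2 * (A * t))).1
    haveI hfinσ : FiniteDimensional K (M.secs σ (A * t)) := iso.symm.finiteDimensional
    have hfr := iso.finrank_eq
    have hjt : j ≤ N * j := Nat.le_mul_of_pos_left j hN
    have htpos : 0 < t := by rw [ht, mul_assoc]; omega
    have hn2 : 1 ≤ n ^ 2 := Nat.one_le_pow _ _ hn0
    constructor
    · -- upper bound for the degree
      obtain ⟨r, hr⟩ : ∃ r, A * t = r + j₁ := ⟨A * t - j₁, (Nat.sub_add_cancel (by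
        calc j₁ ≤ t := by rw [ht, mul_assoc]; omega
          _ ≤ A * t := Nat.le_mul_of_pos_left t hA)).symm⟩
      haveI := (hC₀ r).1
      have h1 := hj₁ r (hr ▸ hfinσ) inferInstance
      rw [← hr, hfr] at h1
      have hq1 : A * (t / 2) ≤ r := by
        have h3 : t / 2 + j₁ ≤ t := by rw [ht, mul_assoc]; omega
        have h4 : A * (t / 2) + A * j₁ ≤ A * t := by rw [← Nat.mul_add]; exact Nat.mul_le_mul_left _ h3
        have h5 : j₁ ≤ A * j₁ := Nat.le_mul_of_pos_left j₁ hA
        omega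
      have h2 : (t / 2 + 1) ^ M.g ≤ Module.finrank K (M.secs (AlgHom.id K M.FA) r) :=
        (hlow (t / 2)).trans (Submodule.finrank_mono (M.secs_mono hq1))
      have h3 := (Nat.mul_le_mul_left d h2).trans (h1.trans (hC₀ _).2)
      have h4 : n ^ 2 * (A * t) + 1 ≤ 8 * A * n ^ 2 * (t / 2 + 1) := by
        have : t ≤ 2 * (t / 2 + 1) := by omega
        have : 1 ≤ n ^ 2 * (A * t) := Nat.mul_pos hn2 (Nat.mul_pos hA htpos)
        nlinarith
      have h5 := h3.trans (Nat.mul_le_mul_left C₀ (Nat.pow_le_pow_left h4 M.g))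
      rw [mul_pow _ (t / 2 + 1), mul_pow _ (n ^ 2), ← pow_mul n, ← mul_assoc, ← mul_assoc] at h5
      exact Nat.le_of_mul_le_mul_right h5 (pow_pos (Nat.succ_pos _) _)
    · -- lower bound for the degree
      haveI := (hC₀ (A * t + j₂)).1
      have h1 := hj₂ (A * t) hfinσ inferInstance
      rw [hfr] at h1
      have h2 : (n ^ 2 * t + 1) ^ M.g ≤
          Module.finrank K (M.secs (AlgHom.id K M.FA) (n ^ 2 * (A * t))) :=
        (hlow (n ^ 2 * t)).trans (Submodule.finrank_mono (M.secs_mono (le_of_eq (by ring))))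
      have h3 := (h2.trans h1).trans (Nat.mul_le_mul_left d (hC₀ _).2)
      have h4 : A * t + j₂ + 1 ≤ 8 * A * t := by
        have : j₂ + 1 ≤ t := by rw [ht, mul_assoc]; omega
        have : t ≤ A * t := Nat.le_mul_of_pos_left t hA
        rw [mul_assoc]
        omega
      have h5 := ((Nat.pow_le_pow_left (Nat.le_succ (n ^ 2 * t)) _).trans h3).trans
        (Nat.mul_le_mul_left d (Nat.mul_le_mul_left C₀ (Nat.pow_le_pow_left h4 M.g)))
      rw [mul_pow _ t, mul_pow (8 * A) t, ← pow_mul n, ← mul_assoc, ← mul_assoc] at h5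
      exact (Nat.le_of_mul_le_mul_right h5 (pow_pos htpos _)).trans_eq (by ring)
  obtain ⟨σ, hσ, hfin, hcard⟩ := hd n hn
  rw [hcard]
  have hn0 : 0 < n := Nat.pos_of_ne_zero (fun h => hn (by rw [h, Nat.cast_zero]))
  have hpow : ∀ k : ℕ, ∃ τ : M.FA →ₐ[K] M.FA, M.IsMulField (n ^ k) τ ∧
      IntermediateField.relfinrank τ.fieldRange ⊤ =
        (IntermediateField.relfinrank σ.fieldRange ⊤) ^ k := by
    intro k
    induction k with
    | zero =>
      refine ⟨AlgHom.id K M.FA, by rw [pow_zero]; exact M.isMulField_one, ?_⟩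
      rw [pow_zero, show (AlgHom.id K M.FA).fieldRange = ⊤ from
        AlgHom.fieldRange_eq_top.mpr Function.surjective_id, IntermediateField.relfinrank_self]
    | succ k ih =>
      obtain ⟨τ, hτ, hdeg⟩ := ih
      refine ⟨τ.comp σ, by rw [pow_succ']; exact M.isMulField_comp hσ hτ, ?_⟩
      have hle : σ.fieldRange.map τ ≤ τ.fieldRange := by
        rintro _ ⟨y, -, rfl⟩
        exact ⟨y, rfl⟩
      rw [← AlgHom.map_fieldRange, ← IntermediateField.relfinrank_mul_relfinrank hle le_top,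
        hdeg, AlgHom.fieldRange_eq_map τ, IntermediateField.relfinrank_map_map, pow_succ']
  have hd0 : 0 < Module.finrank σ.fieldRange M.FA := Module.finrank_pos
  refine eq_of_pow_bounds (C := C₀ * (8 * A) ^ M.g) (pow_pos hn0 _) hd0 (fun k => ?_) fun k => ?_
  all_goals
    obtain ⟨τ, hτ, hdeg⟩ := hpow k
    rw [IntermediateField.relfinrank_top_right, IntermediateField.relfinrank_top_right] at hdeg
    have := hbound (n ^ k) τ (by rw [Nat.cast_pow]; exact pow_ne_zero k hn) hτ
    rw [← pow_mul, mul_comm (2 * M.g) k, pow_mul, ← hdeg]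
  · exact this.1
  · exact this.2

end Fermat.Agent.AbVar
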