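import Fermat.Agent.AbVar.Divisor
import Fermat.Agent.AbVar.GrowthBound

/-!
# Sections of the multiples of the symmetric divisor

Membership in charts, monomials from below, the growth bound from above.
-/

set_option autoImplicit false

noncomputable section

open scoped Classical

namespace Fermat.Agent.AbVar

universe u

section Classes

variable {F : Type u} [Field F] (V : ValuationSubring F)

theorem vcls_eq_iff {x y : F} (hx : x ≠ 0) (hy : y ≠ 0) :
    vcls V x = vcls V y ↔ x / y ∈ V ∧ y / x ∈ V := by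
  rw [vcls, dif_neg hx, vcls, dif_neg hy, ← sub_eq_zero, ← map_sub, ← ofMul_div, valMk_eq_zero_iff,
    ValuationSubring.mem_unitGroup_iff, Units.val_div_eq_div_val, Units.val_mk0, Units.val_mk0]
  refine ⟨fun h => ⟨(V.valuation_le_one_iff _).mp h.le, ?_⟩, fun h => ?_⟩
  · refine (V.valuation_le_one_iff _).mp (le_of_eq ?_)
    rw [← inv_div, map_inv₀, h, inv_one]
  · refine le_antisymm ((V.valuation_le_one_iff _).mpr h.1) ?_
    have h1 := (V.valuation_le_one_iff _).mpr h.2
    rw [← inv_div, map_inv₀] at h1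
    exact (inv_le_one₀ (zero_lt_iff.mpr ((Valuation.ne_zero_iff _).mpr
      (div_ne_zero hx hy)))).mp h1

theorem vcls_pow_nat {x : F} (hx : x ≠ 0) (m : ℕ) : vcls V (x ^ m) = m • vcls V x := by
  induction m with
  | zero =>
    rw [pow_zero, zero_nsmul, vcls, dif_neg one_ne_zero, Units.mk0_one, ofMul_one, map_zero]
  | succ m ih => rw [pow_succ, vcls_mul V (pow_ne_zero m hx) hx, ih, succ_nsmul]

end Classes

namespace Model

variable {K : Type u} [Field K] (M : Model K) {F : Type u} [Field F] [Algebra K F]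

/-- The equation of the symmetric divisor in a pair of charts. -/
def hs (i j : Fin (M.r + 1)) : M.FA := M.h i * M.negHom (M.h j)

theorem hs_ne (i j : Fin (M.r + 1)) : M.hs i j ≠ 0 :=
  mul_ne_zero (M.h_ne i) ((map_ne_zero M.negHom).mpr (M.h_ne j))

/-- A pair of charts at a valuation ring. -/
structure ChartsAt (σ : M.FA →ₐ[K] F) (V : ValuationSubring F) (i j : Fin (M.r + 1)) : Prop where
  fst : ∀ a ∈ M.O i, σ a ∈ V
  snd : ∀ a ∈ M.O j, σ (M.negHom a) ∈ V

theorem exists_chartsAt (σ : M.FA →ₐ[K] F) (V : Val K F) : ∃ i j, M.ChartsAt σ V.1 i j :=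
  ⟨_, _, (M.exists_chart_of_hom σ V).choose_spec,
    (M.exists_chart_of_hom (σ.comp M.negHom) V).choose_spec⟩

theorem pullDiv_eq (σ : M.FA →ₐ[K] F) (V : Val K F) {i : Fin (M.r + 1)}
    (hi : ∀ a ∈ M.O i, σ a ∈ V.1) : M.pullDiv σ V = vcls V.1 (σ (M.h i)) := by
  set i₀ := (M.exists_chart_of_hom σ V).choose
  have hi₀ := (M.exists_chart_of_hom σ V).choose_spec
  let S : Subalgebra K M.FA :=
    { V.1.toSubring.comap σ.toRingHom with
      algebraMap_mem' := fun c => by
        show σ (algebraMap K M.FA c) ∈ V.1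
        rw [AlgHom.commutes]
        exact V.2 c }
  have hS : ∀ i' j', (∀ a ∈ M.O i', σ a ∈ V.1) → (∀ a ∈ M.O j', σ a ∈ V.1) →
      σ (M.h i') / σ (M.h j') ∈ V.1 := fun i' j' h h' => by
    rw [← map_div₀]
    exact (sup_le (c := S) (fun a ha => h a ha) fun a ha => h' a ha) (M.h_unit i' j')
  exact (vcls_eq_iff V.1 ((map_ne_zero σ).mpr (M.h_ne _)) ((map_ne_zero σ).mpr (M.h_ne _))).mpr
    ⟨hS _ _ hi₀ hi, hS _ _ hi hi₀⟩

theorem symDiv_eq (σ : M.FA →ₐ[K] F) (V : Val K F) {i j : Fin (M.r + 1)}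
    (h : M.ChartsAt σ V.1 i j) (m : ℕ) :
    (m • M.symDiv σ) V = vcls V.1 (σ (M.hs i j) ^ m) := by
  rw [vcls_pow_nat _ ((map_ne_zero σ).mpr (M.hs_ne i j))]
  show m • (M.pullDiv σ V + M.pullDiv (σ.comp M.negHom) V) = _
  rw [M.pullDiv_eq σ V h.fst, M.pullDiv_eq (σ.comp M.negHom) V (i := j) h.snd, hs, map_mul σ,
    vcls_mul _ ((map_ne_zero σ).mpr (M.h_ne i))
      ((map_ne_zero σ).mpr ((map_ne_zero M.negHom).mpr (M.h_ne j)))]
  rfl

/-- The sections of a multiple of the pulled back symmetric divisor. -/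
abbrev secs (σ : M.FA →ₐ[K] F) (m : ℕ) : Submodule K F := sections (m • M.symDiv σ)

theorem mem_secs {σ : M.FA →ₐ[K] F} {m : ℕ} {f : F} :
    f ∈ M.secs σ m ↔
      ∀ V : Val K F, ∀ i j, M.ChartsAt σ V.1 i j → f * σ (M.hs i j) ^ m ∈ V.1 := by
  refine ⟨fun hf V i j h => hf V _ (pow_ne_zero _ ((map_ne_zero σ).mpr (M.hs_ne i j)))
    (M.symDiv_eq σ V h m), fun hf V x hx hD => ?_⟩
  obtain ⟨i, j, h⟩ := M.exists_chartsAt σ V
  set y := σ (M.hs i j) ^ m
  have hy : y ≠ 0 := pow_ne_zero _ ((map_ne_zero σ).mpr (M.hs_ne i j))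
  have e : vcls V.1 x = vcls V.1 y := hD.symm.trans (M.symDiv_eq σ V h m)
  have := mul_mem (hf V i j h) ((vcls_eq_iff V.1 hx hy).mp e).1
  rwa [mul_assoc, mul_div_cancel₀ _ hy] at this

theorem hs_mem {σ : M.FA →ₐ[K] F} {V : ValuationSubring F} {i j : Fin (M.r + 1)}
    (h : M.ChartsAt σ V i j) : σ (M.hs i j) ∈ V := by
  rw [hs, map_mul]
  exact mul_mem (h.fst _ (M.h_mem i)) (h.snd _ (M.h_mem j))

theorem secs_mono {σ : M.FA →ₐ[K] F} {m m' : ℕ} (hmm : m ≤ m') : M.secs σ m ≤ M.secs σ m' := by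
  intro f hf
  refine M.mem_secs.mpr fun V i j h => ?_
  rw [← Nat.add_sub_cancel' hmm, pow_add, ← mul_assoc]
  exact mul_mem (M.mem_secs.mp hf V i j h) (pow_mem (M.hs_mem h) _)

theorem mul_mem_secs {σ : M.FA →ₐ[K] F} {m m' : ℕ} {f f' : F} (hf : f ∈ M.secs σ m)
    (hf' : f' ∈ M.secs σ m') : f * f' ∈ M.secs σ (m + m') := by
  refine M.mem_secs.mpr fun V i j h => ?_
  rw [pow_add, mul_mul_mul_comm]
  exact mul_mem (M.mem_secs.mp hf V i j h) (M.mem_secs.mp hf' V i j h)

theorem one_mem_secs (σ : M.FA →ₐ[K] F) : (1 : F) ∈ M.secs σ 0 :=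
  M.mem_secs.mpr fun V i j _ => by simp [one_mem]

/-- An element integral over the main chart has bounded poles. -/
theorem exists_mem_secs_of_root (σ : M.FA →ₐ[K] F) (p : Polynomial (M.O 0)) (hp : p.Monic) {x : F}
    (hx : Polynomial.eval₂ (σ.comp (M.O 0).val).toRingHom x p = 0) :
    ∃ e : ℕ, x ∈ M.secs σ e := by
  choose ec hec using fun (c : M.O 0) (i : Fin (M.r + 1)) => M.h_clear c c.2 i
  set e := ∑ k ∈ Finset.range p.natDegree, ∑ i, ec (p.coeff k) i
  refine ⟨e, M.mem_secs.mpr fun V i j h => ?_⟩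
  have hVn : σ (M.negHom (M.h j)) ^ e ∈ V.1 := pow_mem (h.snd _ (M.h_mem j)) _
  rw [hs, map_mul, mul_pow, ← mul_assoc]
  refine mul_mem ?_ hVn
  set φ := (σ.comp (M.O 0).val).toRingHom
  set c := σ (M.h i) ^ e
  have hlift : (p.map φ).scaleRoots c ∈ Polynomial.lifts V.1.subtype := by
    refine (Polynomial.lifts_iff_coeff_lifts _).mpr fun k => ?_
    rw [Polynomial.coeff_scaleRoots, Polynomial.coeff_map, hp.natDegree_map]
    refine ⟨⟨_, ?_⟩, rfl⟩
    show φ (p.coeff k) * c ^ (p.natDegree - k) ∈ V.1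
    rcases lt_trichotomy k p.natDegree with hk | hk | hk
    · obtain ⟨l, hl⟩ : ∃ l, p.natDegree - k = l + 1 := ⟨p.natDegree - k - 1, by omega⟩
      obtain ⟨r, hr⟩ : ∃ r, e = ec (p.coeff k) i + r := Nat.exists_eq_add_of_le
        (le_trans (Finset.single_le_sum (f := fun i => ec (p.coeff k) i) (fun _ _ => Nat.zero_le _)
          (Finset.mem_univ i))
        (Finset.single_le_sum (f := fun k => ∑ i, ec (p.coeff k) i) (fun _ _ => Nat.zero_le _)
          (Finset.mem_range.mpr hk)))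
      have e1 : φ (p.coeff k) * c ^ (p.natDegree - k) =
          σ ((p.coeff k : M.FA) * M.h i ^ ec (p.coeff k) i) * (σ (M.h i) ^ r * c ^ l) := by
        rw [hl, map_mul, map_pow, show φ (p.coeff k) = σ (p.coeff k : M.FA) from rfl, pow_succ,
          show c = σ (M.h i) ^ e from rfl, hr, pow_add]
        ring
      rw [e1]
      exact mul_mem (h.fst _ (hec _ _)) (mul_mem (pow_mem (h.fst _ (M.h_mem i)) _)
        (pow_mem (pow_mem (h.fst _ (M.h_mem i)) _) _))
    · rw [hk, hp.coeff_natDegree, map_one, Nat.sub_self, pow_zero, one_mul]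
      exact one_mem _
    · rw [Polynomial.coeff_eq_zero_of_natDegree_lt hk, map_zero, zero_mul]
      exact zero_mem _
  obtain ⟨q, hq, -, hqm⟩ := Polynomial.lifts_and_degree_eq_and_monic hlift
    ((Polynomial.monic_scaleRoots_iff c).mpr (hp.map φ))
  refine mem_valuationSubring_of_isIntegral (A := V.1) ⟨q, hqm, ?_⟩ V.1 fun a => a.2
  rw [show algebraMap V.1 F = V.1.subtype from rfl, ← Polynomial.eval_map, hq, mul_comm x,
    Polynomial.scaleRoots_eval_mul, Polynomial.eval_map, hx, mul_zero]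

/-- Functions on the main chart have bounded poles. -/
theorem exists_mem_secs (σ : M.FA →ₐ[K] F) {a : M.FA} (ha : a ∈ M.O 0) :
    ∃ e : ℕ, σ a ∈ M.secs σ e :=
  M.exists_mem_secs_of_root σ (Polynomial.X - Polynomial.C ⟨a, ha⟩) (Polynomial.monic_X_sub_C _)
    (by simp)

theorem negHom_mem {a : M.FA} (ha : a ∈ M.O 0) : M.negHom a ∈ M.O 0 := by
  have h : M.negHom a = (M.negChart ⟨a, ha⟩ : M.FA) :=
    IsFractionRing.lift_algebraMap (A := M.O 0) (K := M.FA) M.negHom_injective ⟨a, ha⟩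
  rw [h]
  exact Subtype.prop _

/-- Sections are functions on the main chart. -/
theorem secs_le_chart {m : ℕ} {f : M.FA} (hf : f ∈ M.secs (AlgHom.id K M.FA) m) : f ∈ M.O 0 := by
  haveI := M.normal 0
  obtain ⟨y, hy⟩ := IsIntegrallyClosed.isIntegral_iff.mp
    (isIntegral_of_forall_mem (A := M.O 0) (x := f) fun V hV => by
      have hVc : ∀ c : K, algebraMap K M.FA c ∈ V := fun c => hV ⟨_, (M.O 0).algebraMap_mem c⟩
      have := M.mem_secs.mp hf ⟨V, hVc⟩ 0 0
        ⟨fun a ha => hV ⟨a, ha⟩, fun a ha => hV ⟨_, M.negHom_mem ha⟩⟩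
      simpa [hs, M.h_zero] using this)
  exact hy ▸ y.2

/-- The bound from above. -/
theorem exists_secs_le [IsAlgClosed K] : ∃ C : ℕ, ∀ m : ℕ,
    FiniteDimensional K (M.secs (AlgHom.id K M.FA) m) ∧
      Module.finrank K (M.secs (AlgHom.id K M.FA) m) ≤ C * (m + 1) ^ M.g := by
  obtain ⟨C, hC⟩ := exists_growth_bound (M.O 0) (M.fg 0) (M.frac 0) M.z M.z_indep M.z_integral
    (fun ij : Fin (M.r + 1) × Fin (M.r + 1) => M.hs ij.1 ij.2) fun ij => M.hs_ne _ _
  refine ⟨C, fun m => hC m _ (fun f hf => M.secs_le_chart hf) fun f hf V hV => ?_⟩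
  obtain ⟨i, j, h⟩ := M.exists_chartsAt (AlgHom.id K M.FA) ⟨V, hV⟩
  exact ⟨(i, j), by simpa using M.mem_secs.mp hf ⟨V, hV⟩ i j h⟩

/-- The bound from below by monomials. -/
theorem exists_le_secs [IsAlgClosed K] : ∃ A : ℕ, 0 < A ∧ ∀ q : ℕ,
    (q + 1) ^ M.g ≤ Module.finrank K (M.secs (AlgHom.id K M.FA) (A * q)) := by
  choose e he using fun l => M.exists_mem_secs (AlgHom.id K M.FA) (M.z l).2
  obtain ⟨C, hC⟩ := M.exists_secs_le
  refine ⟨∑ l, e l + 1, Nat.succ_pos _, fun q => ?_⟩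
  set A := ∑ l, e l + 1
  haveI := (hC (A * q)).1
  let mono : (Fin M.g → Fin (q + 1)) → M.FA := fun a => ∏ l, (M.z l : M.FA) ^ (a l : ℕ)
  have hmono : ∀ a, mono a ∈ M.secs (AlgHom.id K M.FA) (A * q) := fun a => by
    suffices h : ∀ s : Finset (Fin M.g),
        ∏ l ∈ s, (M.z l : M.FA) ^ (a l : ℕ) ∈ M.secs (AlgHom.id K M.FA) ((∑ l ∈ s, e l) * q) by
      refine M.secs_mono ?_ (h Finset.univ)
      exact Nat.mul_le_mul_right _ (Nat.le_succ _)
    intro s
    induction s using Finset.induction_on with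
    | empty =>
      simp only [Finset.prod_empty, Finset.sum_empty, zero_mul]
      exact M.one_mem_secs _
    | @insert l s hl ih =>
      rw [Finset.prod_insert hl, Finset.sum_insert hl, add_mul]
      refine M.mul_mem_secs (M.secs_mono (Nat.mul_le_mul_left _ (Nat.lt_succ_iff.mp (a l).2)) ?_) ih
      generalize (a l : ℕ) = k
      induction k with
      | zero => simpa using M.one_mem_secs (AlgHom.id K M.FA)
      | succ k ih' =>
        rw [pow_succ, Nat.mul_succ]
        exact M.mul_mem_secs ih' (he l)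
  have hli : LinearIndependent K fun a => (⟨mono a, hmono a⟩ : M.secs (AlgHom.id K M.FA) (A * q)) := by
    refine LinearIndependent.of_comp (Submodule.subtype _) ?_
    let ex : (Fin M.g → Fin (q + 1)) → (Fin M.g →₀ ℕ) := fun a =>
      Finsupp.equivFunOnFinite.symm fun l => (a l : ℕ)
    have hex : Function.Injective ex := fun a b h => funext fun l =>
      Fin.ext (congrFun (congrArg (fun f : Fin M.g →₀ ℕ => (f : Fin M.g → ℕ)) h) l)
    have h1 := ((MvPolynomial.basisMonomials (Fin M.g) K).linearIndependent.comp ex hex).map'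
      (MvPolynomial.aeval fun l => (M.z l : M.FA)).toLinearMap
      (LinearMap.ker_eq_bot.mpr M.z_indep)
    have e : mono = (MvPolynomial.aeval fun l => (M.z l : M.FA)).toLinearMap ∘
        (MvPolynomial.basisMonomials (Fin M.g) K ∘ ex) := funext fun a => by
      simp [mono, ex, MvPolynomial.aeval_monomial, Finsupp.prod_fintype]
    have h2 : LinearIndependent K mono := by rw [e]; exact h1
    exact h2
  simpa [Fintype.card_fun] using hli.fintype_card_le_finrank

end Model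

end Fermat.Agent.AbVar
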