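import Fermat.Prelude.Def_JacJ1Iface
import Fermat.Prelude.Def_GoodReductionJacobian_RelativeGroupLawKernel
import Fermat.Agent.AbVar.Scheme.Etale

/-!
# Multiplication by an invertible integer is finite étale
-/

set_option autoImplicit false

noncomputable section

namespace Fermat.Agent.AbVar

open CategoryTheory CategoryTheory.Limits AlgebraicGeometry NeronModelInfra GoodReductionJacobian
open TensorProduct Sch

universe u

/-- Multiplication by `n` is finite, étale and surjective when `n` is invertible. -/
theorem finite_etale_schemeNsmul (K : Type u) [Field K] [IsAlgClosed K] {A : Scheme.{u}}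
    (f : A ⟶ Spec (CommRingCat.of K)) (L : RelativeGroupLaw K f) (hc : L.IsCommutative)
    (hA : AbelianSchemePropertyBundle K f) (g : ℕ) [SmoothOfRelativeDimension g f] (n : ℕ)
    (hn : (n : K) ≠ 0) :
    IsFinite (L.schemeNsmul n) ∧ Etale (L.schemeNsmul n) ∧ Surjective (L.schemeNsmul n) := by
  have := hA.smooth
  have := hA.proper
  have : ConnectedSpace A := by
    rw [connectedSpace_iff_univ]
    convert hA.connectedFibres (IsLocalRing.closedPoint K)
    exact (Set.eq_univ_of_forall fun _ => Subsingleton.elim (α := PrimeSpectrum K) _ _).symm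
  have : AlgebraicGeometry.IsIntegral A := isIntegral_of_smooth_of_connected f
  set N := L.schemeNsmul n with hN
  have het : Etale N := etale_schemeNsmul L hc g n hn
  have : IsProper N := by
    have : IsProper (N ≫ f) := by rw [hN, L.schemeNsmul_over]; infer_instance
    exact IsProper.of_comp N f
  have : LocallyQuasiFinite N := ⟨fun {U} hU {V} hV e => by
    let := (N.appLE U V e).hom.toAlgebra
    have : Algebra.Etale Γ(A, U) Γ(A, V) := N.etale_appLE hU hV e
    show Algebra.QuasiFinite Γ(A, U) Γ(A, V)
    infer_instance⟩
  refine ⟨IsFinite.of_isProper_of_locallyQuasiFinite N, het, ⟨fun y => ?_⟩⟩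
  have hclopen : IsClopen (Set.range N) :=
    ⟨N.isClosedMap.isClosed_range, N.isOpenMap.isOpen_range⟩
  have : Set.range N = Set.univ := hclopen.eq_univ (Set.range_nonempty _)
  exact this.ge (Set.mem_univ y)

/-- A finite étale extension of domains has as many points over a rational point as its degree. -/
theorem natCard_fibre_eq_finrank {K B C : Type u} [Field K] [IsAlgClosed K] [CommRing B]
    [IsDomain B] [Algebra K B] [CommRing C] [IsDomain C] [Algebra K C] [Algebra B C]
    [IsScalarTower K B C] [Module.Finite B C] [Algebra.Etale B C] [FaithfulSMul B C]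
    (y : B →ₐ[K] K) :
    Nat.card {x : C →ₐ[K] K // x.comp (IsScalarTower.toAlgHom K B C) = y} =
      Module.finrank (FractionRing B) (TensorProduct B (FractionRing B) C) := by
  let := y.toRingHom.toAlgebra
  have : IsScalarTower K B K := IsScalarTower.of_algebraMap_eq' y.comp_algebraMap.symm
  have hφ : ∀ (φ : K ⊗[B] C →ₐ[K] K) (b : B), φ (1 ⊗ₜ[B] algebraMap B C b) = y b := fun φ b => by
    rw [Algebra.algebraMap_eq_smul_one, ← TensorProduct.smul_tmul, Algebra.smul_def, mul_one]
    exact φ.commutes (y b)
  let e : (K ⊗[B] C →ₐ[K] K) ≃ {x : C →ₐ[K] K // x.comp (IsScalarTower.toAlgHom K B C) = y} :=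
    { toFun := fun φ => ⟨{ φ.toRingHom.comp
            (Algebra.TensorProduct.includeRight (R := B) (A := K)).toRingHom with
          commutes' := fun k => by
            show φ (1 ⊗ₜ[B] algebraMap K C k) = _
            rw [IsScalarTower.algebraMap_apply K B C, hφ]
            exact y.commutes k },
        AlgHom.ext (hφ φ)⟩
      invFun := fun x => Algebra.TensorProduct.lift (AlgHom.id K K)
        { x.1.toRingHom with commutes' := fun b => AlgHom.congr_fun x.2 b } fun _ _ => .all _ _
      left_inv := fun φ => Algebra.TensorProduct.ext' fun k c => ?_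
      right_inv := fun x => Subtype.ext (AlgHom.ext fun c => ?_) }
  · rw [← Nat.card_congr e, Nat.card_congr (Algebra.IsFiniteSplit.algHomEquivPrimeSpectrum K (K ⊗[B] C))]
    have h1 : Module.finrank K (K ⊗[B] C) = Nat.card (PrimeSpectrum (K ⊗[B] C)) := by
      have : IsArtinianRing (K ⊗[B] C) := isArtinian_of_tower K inferInstance
      have := Fintype.ofFinite (PrimeSpectrum (K ⊗[B] C))
      rw [(Algebra.FormallyEtale.equivPiOfIsSepClosed K (K ⊗[B] C)).toLinearEquiv.finrank_eq,
        Module.finrank_fintype_fun_eq_card, Nat.card_eq_fintype_card]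
    have h2 : Module.finrank K (K ⊗[B] C) = Module.finrank B C := by
      have hr : Module.rankAtStalk (K ⊗[B] C) (IsLocalRing.closedPoint K) =
          Module.finrank K (K ⊗[B] C) := by
        rw [Module.rankAtStalk_eq_finrank_of_free]; simp
      rw [← hr, Module.rankAtStalk_baseChange, Module.rankAtStalk_eq,
        Ideal.finrank_fiber_eq_finrank]
    rw [← h1, h2]
    exact ((TensorProduct.isBaseChange B C (FractionRing B)).finrank_eq).symm
  · show k * φ (1 ⊗ₜ[B] c) = φ (k ⊗ₜ[B] c)
    conv_rhs => rw [← mul_one k, ← smul_eq_mul, ← TensorProduct.smul_tmul', map_smul]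
    rfl
  · show (1 : K) * x.1 c = x.1 c
    rw [one_mul]

end Fermat.Agent.AbVar
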