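import Mathlib
import Fermat.Agent.AbVar.LocalAlgebra.Smooth

/-!
# Local algebra of smooth algebras over an algebraically closed field: factoriality
-/

set_option autoImplicit false
set_option linter.style.haveILetI false

noncomputable section

namespace Fermat.Agent.AbVar

universe u

/-- Formal power series in finitely many variables over a field form a factorial ring. -/
theorem uniqueFactorizationMonoid_mvPowerSeries (k : Type u) [Field k] [Infinite k] (n : ℕ) :
    UniqueFactorizationMonoid (MvPowerSeries (Fin n) k) :=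
  uniqueFactorizationMonoid_mvPowerSeries' k n

open MvPowerSeries in
/-- The local ring at a closed point has the truncations of power series. -/
theorem exists_sameTrunc (K : Type u) {B : Type u} [Field K] [IsAlgClosed K] [CommRing B]
    [Algebra K B] [Algebra.Smooth K B] [IsNoetherianRing B] (m : Ideal B) [m.IsMaximal] :
    ∃ (d : ℕ) (φ : Localization.AtPrime m →+* MvPowerSeries (Fin d) K), SameTrunc φ := by
  obtain ⟨d, g, hg, hrefl, happ⟩ := exists_embedding (K := K) m
  have hu : ∀ s : m.primeCompl, IsUnit (g s) := fun s => by_contra fun h => s.2 ((hg _).mpr h)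
  refine ⟨d, IsLocalization.lift hu, ⟨fun a ha => ?_, fun j a ha => ?_, fun j r => ?_⟩⟩
  · obtain ⟨b, s, rfl⟩ := IsLocalization.exists_mk'_eq m.primeCompl a
    replace ha : b ∈ m := (IsLocalization.AtPrime.mk'_mem_maximal_iff (Localization.AtPrime m) m b s).mp ha
    rw [IsLocalization.lift_mk']
    exact Ideal.mul_mem_right _ _ ((IsLocalRing.mem_maximalIdeal _).mpr ((hg b).mp ha))
  · obtain ⟨b, s, rfl⟩ := IsLocalization.exists_mk'_eq m.primeCompl a
    have h1 : g b ∈ IsLocalRing.maximalIdeal (MvPowerSeries (Fin d) K) ^ j := by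
      have h2 := congrArg (IsLocalization.lift hu)
        (IsLocalization.mk'_spec (Localization.AtPrime m) b s)
      rw [map_mul, IsLocalization.lift_eq, IsLocalization.lift_eq] at h2
      exact h2 ▸ Ideal.mul_mem_right _ _ ha
    rw [IsLocalization.mk'_eq_mul_mk'_one]
    refine Ideal.mul_mem_right _ _ ?_
    rw [← IsLocalization.AtPrime.map_eq_maximalIdeal (R := B) m, ← Ideal.map_pow]
    exact Ideal.mem_map_of_mem _ (hrefl j b h1)
  · obtain ⟨b, hb⟩ := happ j r
    exact ⟨algebraMap B _ b, by rwa [IsLocalization.lift_eq]⟩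

/-- Finite intersections of principal ideals of a factorial ring are principal. -/
theorem exists_lcm_gen {A : Type*} [CommRing A] [IsDomain A] [UniqueFactorizationMonoid A]
    {ι : Type*} (s : Finset ι) (i : ι → A) : ∃ g : A, ∀ d, g ∣ d ↔ ∀ x ∈ s, i x ∣ d := by
  classical
  letI := UniqueFactorizationMonoid.toGCDMonoid A
  induction s using Finset.induction_on with
  | empty => exact ⟨1, fun d => by simp⟩
  | @insert x s _ ih =>
    obtain ⟨g, hg⟩ := ih
    exact ⟨lcm (i x) g, fun d => by rw [lcm_dvd_iff, hg, Finset.forall_mem_insert]⟩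

/-- Divisibility in a local ring of a domain. -/
theorem dvd_localization_iff {B : Type*} [CommRing B] (p : Ideal B) [p.IsPrime] {c y : B} :
    algebraMap B (Localization.AtPrime p) c ∣ algebraMap B (Localization.AtPrime p) y ↔
      ∃ t ∈ p.primeCompl, c ∣ t * y := by
  constructor
  · rintro ⟨z, hz⟩
    obtain ⟨e, t, rfl⟩ := IsLocalization.exists_mk'_eq p.primeCompl z
    rw [IsLocalization.mul_mk'_eq_mk'_of_mul] at hz
    rw [eq_comm, IsLocalization.mk'_eq_iff_eq_mul, ← map_mul,
      IsLocalization.eq_iff_exists p.primeCompl] at hz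
    obtain ⟨u, hu⟩ := hz
    exact ⟨u * t, mul_mem u.2 t.2, u * e, by linear_combination -hu⟩
  · rintro ⟨t, ht, h⟩
    have h1 := map_dvd (algebraMap B (Localization.AtPrime p)) h
    rwa [map_mul, IsUnit.dvd_mul_left (IsLocalization.map_units _ (⟨t, ht⟩ : p.primeCompl))] at h1

variable (K : Type u) {B : Type u} [Field K] [IsAlgClosed K] [CommRing B] [Algebra K B]
  [Algebra.Smooth K B]
include K

/-- The local rings of a smooth algebra at closed points are domains. -/
theorem isDomain_localization_of_smooth (m : Ideal B) [m.IsMaximal] :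
    IsDomain (Localization.AtPrime m) := by
  haveI : IsNoetherianRing B := Algebra.FiniteType.isNoetherianRing K B
  obtain ⟨d, φ, h⟩ := exists_sameTrunc K m
  haveI : IsDomain (MvPowerSeries (Fin d) K) := NoZeroDivisors.to_isDomain _
  exact h.injective.isDomain φ

/-- The local rings of a smooth algebra at closed points are factorial. -/
theorem uniqueFactorizationMonoid_localization_of_smooth (m : Ideal B) [m.IsMaximal]
    [IsDomain (Localization.AtPrime m)] :
    UniqueFactorizationMonoid (Localization.AtPrime m) := by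
  haveI : IsNoetherianRing B := Algebra.FiniteType.isNoetherianRing K B
  obtain ⟨d, φ, h⟩ := exists_sameTrunc K m
  haveI : IsDomain (MvPowerSeries (Fin d) K) := NoZeroDivisors.to_isDomain _
  haveI := uniqueFactorizationMonoid_mvPowerSeries K d
  exact h.uniqueFactorizationMonoid

variable [IsDomain B]

/-- A smooth domain over an algebraically closed field is integrally closed. -/
theorem isIntegrallyClosed_of_smooth : IsIntegrallyClosed B := by
  refine IsIntegrallyClosed.of_localization_maximal fun p _ hp => ?_
  haveI := isDomain_localization_of_smooth K p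
  haveI := uniqueFactorizationMonoid_localization_of_smooth K p
  exact UniqueFactorizationMonoid.instIsIntegrallyClosed

variable {F : Type u} [Field F] [Algebra B F] [IsFractionRing B F]

/-- An element lies in the local ring at `p`. -/
def InLoc (p : Ideal B) (x : F) : Prop :=
  ∃ a c : B, c ∉ p ∧ x * algebraMap B F c = algebraMap B F a

/-- Near a closed point, the ideal of denominators of finitely many rational functions is
principal. -/
theorem exists_equation (s : Finset F) (m : Ideal B) [m.IsMaximal] :
    ∃ (b h : B) (e : ℕ), b ∉ m ∧ h ≠ 0 ∧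
      (∀ x ∈ s, ∃ a : B, x * algebraMap B F h * algebraMap B F b ^ e = algebraMap B F a) ∧
      ∀ p : Ideal B, p.IsPrime → b ∉ p → ∀ h' : F, InLoc p h' → (∀ x ∈ s, InLoc p (x * h')) →
        InLoc p (h' / algebraMap B F h) := by
  classical
  haveI : IsNoetherianRing B := Algebra.FiniteType.isNoetherianRing K B
  haveI := isDomain_localization_of_smooth K m
  haveI := uniqueFactorizationMonoid_localization_of_smooth K m
  obtain ⟨d, φ, hφ⟩ := exists_sameTrunc K m
  haveI : IsDomain (MvPowerSeries (Fin d) K) := NoZeroDivisors.to_isDomain _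
  haveI := uniqueFactorizationMonoid_mvPowerSeries K d
  choose num den hden hx using fun x : F => IsFractionRing.div_surjective B x
  have hden0 : ∀ x, den x ≠ 0 := fun x => nonZeroDivisors.ne_zero (hden x)
  have hdenF : ∀ x, algebraMap B F (den x) ≠ 0 := fun x =>
    (map_ne_zero_iff _ (IsFractionRing.injective B F)).mpr (hden0 x)
  have hclear : ∀ (x : F) (y : B),
      (∃ a, x * algebraMap B F y = algebraMap B F a) ↔ den x ∣ y * num x := fun x y => by
    constructor
    · rintro ⟨a, ha⟩
      refine ⟨a, IsFractionRing.injective B F ?_⟩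
      rw [← hx x, div_mul_eq_mul_div, div_eq_iff (hdenF x)] at ha
      rw [map_mul, map_mul]
      linear_combination ha
    · rintro ⟨a, ha⟩
      refine ⟨a, ?_⟩
      rw [← hx x, div_mul_eq_mul_div, div_eq_iff (hdenF x), ← map_mul, ← map_mul, mul_comm,
        ha, mul_comm]
  let D : Ideal B :=
    { carrier := {y | ∀ x ∈ s, den x ∣ y * num x}
      zero_mem' := fun x _ => by simp
      add_mem' := fun {y y'} hy hy' x hxs => by
        rw [add_mul]; exact dvd_add (hy x hxs) (hy' x hxs)
      smul_mem' := fun b y hy x hxs => by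
        rw [smul_eq_mul, mul_assoc]; exact (hy x hxs).mul_left b }
  have hinj : Function.Injective (algebraMap B (Localization.AtPrime m)) :=
    IsLocalization.injective _ m.primeCompl_le_nonZeroDivisors
  choose i hi using fun x : F => hφ.exists_colon_gen
    ((map_ne_zero_iff _ hinj).mpr (hden0 x)) (algebraMap B (Localization.AtPrime m) (num x))
  obtain ⟨g, hg⟩ := exists_lcm_gen s i
  obtain ⟨b₀, t₀, rfl⟩ := IsLocalization.exists_mk'_eq m.primeCompl g
  have hgen : ∀ y : Localization.AtPrime m, algebraMap B _ b₀ ∣ y ↔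
      ∀ x ∈ s, algebraMap B _ (den x) ∣ y * algebraMap B _ (num x) := fun y => by
    have e : IsLocalization.mk' (Localization.AtPrime m) b₀ t₀ ∣ y ↔ algebraMap B _ b₀ ∣ y := by
      rw [IsLocalization.mk'_eq_mul_mk'_one]
      refine IsUnit.mul_right_dvd ?_
      exact IsUnit.of_mul_eq_one _ (IsLocalization.mk'_spec _ 1 t₀ |>.trans (map_one _))
    rw [← e, hg]
    exact forall_congr' fun x => imp_congr Iff.rfl (hi x y).symm
  have h1 : ∀ x ∈ s, ∃ t ∈ m.primeCompl, den x ∣ t * (b₀ * num x) := fun x hxs => by
    rw [← dvd_localization_iff, map_mul]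
    exact (hgen _).mp dvd_rfl x hxs
  choose! t ht htd using h1
  set h := b₀ * ∏ x ∈ s, t x
  have hmem : h ∈ D := fun x hxs => by
    rw [show h * num x = (∏ y ∈ s.erase x, t y) * (t x * (b₀ * num x)) by
      simp only [h, ← Finset.mul_prod_erase s t hxs]; ring]
    exact (htd x hxs).mul_left _
  have hprod : ∏ x ∈ s, t x ∈ m.primeCompl := Submonoid.prod_mem _ ht
  have hloc : ∀ y ∈ D, ∃ u ∈ m.primeCompl, h ∣ u * y := fun y hy => by
    obtain ⟨u, hu, hdvd⟩ := (dvd_localization_iff m).mp ((hgen (algebraMap B _ y)).mpr fun x hxs => by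
      rw [← map_mul]; exact map_dvd _ (hy x hxs))
    exact ⟨(∏ x ∈ s, t x) * u, mul_mem hprod hu, by
      simp only [h, mul_assoc]; rw [mul_comm b₀]; exact mul_dvd_mul_left _ hdvd⟩
  have hh0 : h ≠ 0 := by
    refine mul_ne_zero (fun e => ?_) fun e => ?_
    · have hC : ∏ x ∈ s, den x ∈ D := fun x hxs => (Finset.dvd_prod_of_mem den hxs).mul_right _
      have := (hgen (algebraMap B _ (∏ x ∈ s, den x))).mpr fun x hxs => by
        rw [← map_mul]; exact map_dvd _ (hC x hxs)
      rw [e, map_zero, zero_dvd_iff, map_eq_zero_iff _ hinj, Finset.prod_eq_zero_iff] at this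
      obtain ⟨x, -, hx0⟩ := this
      exact hden0 x hx0
    · exact hprod (e ▸ m.zero_mem)
  obtain ⟨T, hT⟩ := IsNoetherian.noetherian D
  choose! u hu hud using hloc
  set b := ∏ y ∈ T, u y
  have hTD : ∀ y ∈ T, y ∈ D := fun y hy => hT ▸ Submodule.subset_span hy
  have hb : b ∈ m.primeCompl := Submonoid.prod_mem _ fun y hy => hu y (hTD y hy)
  have hdiv : ∀ y ∈ D, h ∣ b * y := fun y hy => by
    rw [← hT] at hy
    induction hy using Submodule.span_induction with
    | mem y hy =>
      rw [show b = (∏ z ∈ T.erase y, u z) * u y from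
        (Finset.prod_erase_mul T u hy).symm, mul_assoc]
      exact (hud y (hTD y hy)).mul_left _
    | zero => simp
    | add y z _ _ hy hz => rw [mul_add]; exact dvd_add hy hz
    | smul r y _ hy => rw [smul_eq_mul, mul_left_comm]; exact hy.mul_left _
  refine ⟨b, h, 0, hb, hh0, fun x hxs => ?_, fun p hp hbp h' hh' hxh' => ?_⟩
  · rw [pow_zero, mul_one]
    exact (hclear x h).mpr (hmem x hxs)
  obtain ⟨a, c, hc, hac⟩ := hh'
  choose! a' c' hc' ha'c' using hxh'
  set C := ∏ x ∈ s, c' x
  have hC : C ∉ p := by
    show C ∈ p.primeCompl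
    exact Submonoid.prod_mem _ fun x hxs => hc' x hxs
  have haD : a * C ∈ D := fun x hxs => by
    refine (hclear x _).mp ⟨a' x * c * ∏ y ∈ s.erase x, c' y, ?_⟩
    simp only [C, ← Finset.mul_prod_erase s c' hxs, map_mul]
    rw [← hac]
    have := ha'c' x hxs
    linear_combination (algebraMap B F c * algebraMap B F (∏ y ∈ s.erase x, c' y)) * this
  obtain ⟨q, hq⟩ := hdiv _ haD
  refine ⟨q, b * C * c, ?_, ?_⟩
  · show b * C * c ∈ p.primeCompl
    exact mul_mem (mul_mem (show b ∈ p.primeCompl from hbp) hC) hc
  have hhF : algebraMap B F h ≠ 0 := (map_ne_zero_iff _ (IsFractionRing.injective B F)).mpr hh0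
  rw [div_mul_eq_mul_div, div_eq_iff hhF, map_mul, map_mul]
  have hqF := congrArg (algebraMap B F) hq
  rw [map_mul, map_mul, map_mul] at hqF
  linear_combination (algebraMap B F b * algebraMap B F C) * hac + hqF

end Fermat.Agent.AbVar
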