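import Mathlib

/-!
# An algebraic model of an abelian variety

The function field, finitely many normal affine charts, a divisor cut out by one element in each
chart, and the groups of points over fields with their reduction maps along valuation rings.
-/

set_option autoImplicit false

noncomputable section

namespace Fermat.Agent.AbVar

universe u

/-- The data of an abelian variety over `K` used by the torsion count. -/
structure Model (K : Type u) [Field K] where
  /-- The function field. -/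
  FA : Type u
  [fieldFA : Field FA]
  [algFA : Algebra K FA]
  /-- The number of charts besides the main one. -/
  r : ℕ
  /-- The chart rings. -/
  O : Fin (r + 1) → Subalgebra K FA
  fg : ∀ i, (O i).FG
  frac : ∀ i (x : FA), ∃ a ∈ O i, ∃ b ∈ O i, b ≠ 0 ∧ x = a / b
  normal : ∀ i, IsIntegrallyClosed (O i)
  /-- The dimension. -/
  g : ℕ
  /-- Normalisation coordinates of the main chart. -/
  z : Fin g → O 0
  z_indep : AlgebraicIndependent K (fun l => (z l : FA))
  z_integral : ∀ a ∈ O 0, IsIntegral (Algebra.adjoin K (Set.range fun l => (z l : FA))) a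
  /-- The equations of a divisor supported outside the main chart. -/
  h : Fin (r + 1) → FA
  h_zero : h 0 = 1
  h_ne : ∀ i, h i ≠ 0
  h_mem : ∀ i, h i ∈ O i
  h_unit : ∀ i j, h i / h j ∈ O i ⊔ O j
  h_clear : ∀ a ∈ O 0, ∀ i, ∃ e : ℕ, a * h i ^ e ∈ O i
  /-- The points over a field. -/
  Pt : ∀ (F : Type u) [Field F] [Algebra K F], Type u
  [ptGroup : ∀ (F : Type u) [Field F] [Algebra K F], AddCommGroup (Pt F)]
  /-- Functoriality of points. -/
  map : ∀ {F G : Type u} [Field F] [Algebra K F] [Field G] [Algebra K G],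
    (F →ₐ[K] G) → Pt F →+ Pt G
  map_id : ∀ {F : Type u} [Field F] [Algebra K F] (P : Pt F), map (AlgHom.id K F) P = P
  map_map : ∀ {F G H : Type u} [Field F] [Algebra K F] [Field G] [Algebra K G] [Field H]
    [Algebra K H] (s : F →ₐ[K] G) (t : G →ₐ[K] H) (P : Pt F), map t (map s P) = map (t.comp s) P
  /-- The point given by a chart. -/
  pt : ∀ {F : Type u} [Field F] [Algebra K F] (i : Fin (r + 1)), (O i →ₐ[K] F) → Pt F
  map_pt : ∀ {F G : Type u} [Field F] [Algebra K F] [Field G] [Algebra K G] (s : F →ₐ[K] G) i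
    (φ : O i →ₐ[K] F), map s (pt i φ) = pt i (s.comp φ)
  exists_chart : ∀ {F : Type u} [Field F] [Algebra K F] (V : ValuationSubring F),
    (∀ c : K, algebraMap K F c ∈ V) → ∀ P : Pt F,
      ∃ i, ∃ φ : O i →ₐ[K] F, (∀ a, φ a ∈ V) ∧ pt i φ = P
  overlap : ∀ {F : Type u} [Field F] [Algebra K F] {i j} (φ : O i →ₐ[K] F) (ψ : O j →ₐ[K] F),
    pt i φ = pt j ψ → ∃ χ : ↥(O i ⊔ O j) →ₐ[K] F,
      χ.comp (Subalgebra.inclusion le_sup_left) = φ ∧
      χ.comp (Subalgebra.inclusion le_sup_right) = ψ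
  overlap3 : ∀ {F : Type u} [Field F] [Algebra K F] {i j l} (φ : O i →ₐ[K] F) (ψ : O j →ₐ[K] F)
    (θ : O l →ₐ[K] F), pt i φ = pt j ψ → pt i φ = pt l θ →
    ∃ χ : ↥(O i ⊔ O j ⊔ O l) →ₐ[K] F,
      χ.comp (Subalgebra.inclusion (le_sup_of_le_left le_sup_left)) = φ ∧
      χ.comp (Subalgebra.inclusion (le_sup_of_le_left le_sup_right)) = ψ ∧
      χ.comp (Subalgebra.inclusion le_sup_right) = θ
  glue : ∀ {F : Type u} [Field F] [Algebra K F] {i j} (χ : ↥(O i ⊔ O j) →ₐ[K] F),
    pt i (χ.comp (Subalgebra.inclusion le_sup_left)) =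
      pt j (χ.comp (Subalgebra.inclusion le_sup_right))
  /-- Reduction along a ring homomorphism out of a valuation ring. -/
  red : ∀ {F k : Type u} [Field F] [Algebra K F] [Field k] [Algebra K k] (V : ValuationSubring F)
    (hV : ∀ c : K, algebraMap K F c ∈ V) (π : V →+* k)
    (_ : ∀ c : K, π ⟨algebraMap K F c, hV c⟩ = algebraMap K k c), Pt F →+ Pt k
  red_pt : ∀ {F k : Type u} [Field F] [Algebra K F] [Field k] [Algebra K k]
    (V : ValuationSubring F) (hV : ∀ c : K, algebraMap K F c ∈ V) (π : V →+* k)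
    (hπ : ∀ c : K, π ⟨algebraMap K F c, hV c⟩ = algebraMap K k c) i (φ : O i →ₐ[K] F)
    (ψ : O i →ₐ[K] k) (hφ : ∀ a, φ a ∈ V), (∀ a, π ⟨φ a, hφ a⟩ = ψ a) →
    red V hV π hπ (pt i φ) = pt i ψ
  chart_of_red : ∀ {F k : Type u} [Field F] [Algebra K F] [Field k] [Algebra K k]
    (V : ValuationSubring F) (hV : ∀ c : K, algebraMap K F c ∈ V) (π : V →+* k)
    (hπ : ∀ c : K, π ⟨algebraMap K F c, hV c⟩ = algebraMap K k c), IsLocalHom π →
    ∀ (P : Pt F) (i) (ψ : O i →ₐ[K] k), red V hV π hπ P = pt i ψ →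
      ∃ φ : O i →ₐ[K] F, (∀ a, φ a ∈ V) ∧ pt i φ = P
  /-- Inversion on the main chart. -/
  negChart : O 0 →ₐ[K] O 0
  neg_pt : ∀ {F : Type u} [Field F] [Algebra K F] (φ : O 0 →ₐ[K] F),
    -pt 0 φ = pt 0 (φ.comp negChart)

attribute [instance] Model.fieldFA Model.algFA Model.ptGroup

variable {K : Type u} [Field K]

/-- The generic point. -/
def Model.gen (M : Model K) : M.Pt M.FA := M.pt 0 (M.O 0).val

/-- The endomorphism of the function field given by multiplication by `n`. -/
def Model.IsMulField (M : Model K) (n : ℕ) (σ : M.FA →ₐ[K] M.FA) : Prop :=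
  n • M.gen = M.map σ M.gen

/-- The number of `n`-torsion points is the degree of multiplication by `n`. -/
def Model.HasDegree (M : Model K) : Prop :=
  ∀ n : ℕ, (n : K) ≠ 0 → ∃ σ : M.FA →ₐ[K] M.FA, M.IsMulField n σ ∧
    FiniteDimensional σ.fieldRange M.FA ∧
    Nat.card {P : M.Pt K // n • P = 0} = Module.finrank σ.fieldRange M.FA

end Fermat.Agent.AbVar
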