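import Fermat.Agent.AbVar.Cube.Line
import Fermat.Agent.AbVar.Cube.Para
import Fermat.Agent.AbVar.Cube.Extend

/-!
# Pullback by multiplication is quadratic

The line gives the parallelogram relation at a generic point of a transcendental extension; it is
specialised to all multiples and descended to the function field.
-/

set_option autoImplicit false
set_option linter.style.haveILetI false
set_option linter.unusedSectionVars false

noncomputable section

open scoped TensorProduct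

namespace Fermat.Agent.AbVar

universe u

variable {K : Type u} [Field K]

theorem pullCDiv_resCDiv {k F G : Type u} [Field k] [Algebra K k] [Field F] [Algebra k F]
    [Algebra K F] [IsScalarTower K k F] [Field G] [Algebra k G] [Algebra K G] [IsScalarTower K k G]
    (s : F →ₐ[k] G) (D : CDiv K F) :
    pullCDiv s (resCDiv k F K D) = resCDiv k G K (pullCDiv (s.restrictScalars K) D) :=
  rfl

namespace Model

variable (M : Model K)

theorem pullDiv_sub_ptDiv_mem {F : Type u} [Field F] [Algebra K F] (τ : M.FA →ₐ[K] F) :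
    M.pullDiv τ - M.ptDiv (M.map τ M.gen) ∈ TP K F := by
  have hI : ∀ i, M.pt i (τ.comp (M.O i).val) = M.map τ M.gen := fun i => by
    rw [M.gen_eq i, M.map_pt]
  have hR : ∀ i, M.ratio (M.map τ M.gen) i 0 = τ (M.h i) := fun i => by
    rw [M.ratio_eq (τ.comp (M.O i ⊔ M.O 0).val) ((hI i).trans rfl)]
    show τ (M.h i / M.h 0) = _
    rw [M.h_zero, div_one]
  have hne : M.ratio (M.map τ M.gen) (M.base (M.map τ M.gen)) 0 ≠ 0 := M.ratio_ne_zero _ _ _
  refine ⟨1, one_pos, _, hne, funext fun V => ?_⟩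
  set i := (M.exists_chart_of_hom τ V).choose with hi
  let φ : M.O i →ₐ[K] V.alg := (τ.comp (M.O i).val).codRestrict V.alg
    fun a => (M.exists_chart_of_hom τ V).choose_spec a.1 a.2
  rw [one_nsmul, Pi.sub_apply, M.ptDiv_eq φ (hI i) ⟨_, hI 0⟩, hR i, Model.pullDiv, ← hi,
    sub_sub_cancel, principal]

theorem map_comp_negHom_gen {F : Type u} [Field F] [Algebra K F] (τ : M.FA →ₐ[K] F) :
    M.map (τ.comp M.negHom) M.gen = -M.map τ M.gen := by
  rw [Model.gen, M.map_pt, M.map_pt, M.neg_pt]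
  congr 1
  refine AlgHom.ext fun a => ?_
  show τ (M.negHom (a : M.FA)) = τ ((M.negChart a : M.O 0) : M.FA)
  congr 1
  exact IsFractionRing.lift_algebraMap M.negHom_injective a

variable [IsAlgClosed K]

theorem symDiv_sub_ptDiv_mem {F : Type u} [Field F] [Algebra K F] (τ : M.FA →ₐ[K] F) :
    M.symDiv τ - (M.ptDiv (M.map τ M.gen) + M.ptDiv (-M.map τ M.gen)) ∈ TP K F := by
  rw [← M.map_comp_negHom_gen, Model.symDiv, add_sub_add_comm]
  exact add_mem (M.pullDiv_sub_ptDiv_mem τ) (M.pullDiv_sub_ptDiv_mem _)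

/-- A valuation ring of the generic extension reducing the generic point to a given one. -/
theorem exists_val_generic {k Ω : Type u} [Field k] [IsAlgClosed k] [Algebra K k] [Field Ω]
    [Algebra k Ω] [Algebra K Ω] [IsScalarTower K k Ω] (g : M.FA →ₐ[K] Ω)
    (hg : Function.Injective
      (Algebra.TensorProduct.lift (Algebra.ofId k Ω) g fun _ _ => Commute.all _ _))
    (Q : M.Pt k) :
    ∃ V : Val k Ω, ∀ [Algebra K V.Res] [IsScalarTower K k V.Res],
      M.redK V V.res (M.map g M.gen) = M.map (IsScalarTower.toAlgHom K k V.Res) Q := by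
  obtain ⟨i, ψ, rfl⟩ := M.exists_pt Q
  let j : k ⊗[K] M.O i →ₐ[k] Ω :=
    (Algebra.TensorProduct.lift (Algebra.ofId k Ω) g fun _ _ => Commute.all _ _).comp
      (Algebra.TensorProduct.map (AlgHom.id k k) (M.O i).val)
  have hj : Function.Injective j := hg.comp
    (Module.Flat.lTensor_preserves_injective_linearMap (M := k) (M.O i).val.toLinearMap
      Subtype.val_injective)
  let e := AlgEquiv.ofInjective j hj
  let χ : j.range →ₐ[k] k :=
    (Algebra.TensorProduct.lift (AlgHom.id k k) ψ fun _ _ => Commute.all _ _).comp e.symm.toAlgHom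
  obtain ⟨V, hle, hV⟩ := exists_val_of_hom j.range χ
  refine ⟨V, ?_⟩
  intro _ _
  have hmem : ∀ a : M.O i, g a ∈ j.range := fun a => ⟨1 ⊗ₜ a, by simp [j]⟩
  rw [M.gen_eq i, M.map_pt, M.map_pt]
  refine M.redK_pt V V.res i _ _ (fun a => hle (hmem a)) fun a => ?_
  refine (hV ⟨g a, hmem a⟩).trans ?_
  show algebraMap k V.Res (χ _) = algebraMap k V.Res (ψ a)
  congr 1
  have he : e.symm ⟨g a, hmem a⟩ = 1 ⊗ₜ a := by
    rw [AlgEquiv.symm_apply_eq]
    exact Subtype.ext (by simp [e, j])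
  show Algebra.TensorProduct.lift (AlgHom.id k k) ψ (fun _ _ => Commute.all _ _) (e.symm ⟨g a, hmem a⟩) = ψ a
  rw [he, Algebra.TensorProduct.lift_tmul, map_one, one_mul]

theorem redK_const {k Ω : Type u} [Field k] [IsAlgClosed k] [Algebra K k] [Field Ω]
    [Algebra k Ω] [Algebra K Ω] [IsScalarTower K k Ω] (V : Val k Ω) [Algebra K V.Res]
    [IsScalarTower K k V.Res] (Q : M.Pt k) :
    M.redK V V.res (M.map (IsScalarTower.toAlgHom K k Ω) Q) =
      M.map (IsScalarTower.toAlgHom K k V.Res) Q := by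
  obtain ⟨i, ψ, rfl⟩ := M.exists_pt Q
  rw [M.map_pt, M.map_pt]
  exact M.redK_pt V V.res i _ _ (fun a => V.2 (ψ a)) fun a => V.res.commutes (ψ a)

set_option maxHeartbeats 1000000 in
/-- Rigidity gives the square relation at the generic point. -/
theorem squareDiv_mem {k : Type u} [Field k] [IsAlgClosed k] [Algebra K k] {F : Type u}
    [Field F] [Algebra k F] [Algebra K F] [IsScalarTower K k F] {x : F}
    (hx : Fermat.Agent.MCurve.IsFinOver k x) (P : M.Pt F) (v₀ v₁ : RatPoint k F x)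
    (P₀ P₁ : M.Pt k) (h₀ : M.HasValue v₀ P P₀) (h₁ : M.HasValue v₁ P P₁)
    {Ω₁ : Type u} [Field Ω₁] [Algebra k Ω₁] [Algebra K Ω₁] [IsScalarTower K k Ω₁]
    (R₁ : Val k Ω₁) [Algebra K R₁.Res] [IsScalarTower K k R₁.Res] (η : M.Pt Ω₁)
    (hη : M.redK R₁ R₁.res η = 0) :
    M.squareDiv η (M.map (IsScalarTower.toAlgHom K k Ω₁) (P₁ - P₀)) ∈
      TP Ω₁ (Big K Ω₁ M.FA) := by
  let Ω₂ := AlgebraicClosure (Big K Ω₁ M.FA)
  set c : M.Pt Ω₁ := M.map (IsScalarTower.toAlgHom K k Ω₁) (P₁ - P₀) with hc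
  let s : Big K Ω₁ M.FA →ₐ[Ω₁] Ω₂ := IsScalarTower.toAlgHom Ω₁ (Big K Ω₁ M.FA) Ω₂
  set G : M.Pt Ω₂ := M.map ((s.restrictScalars K).comp (incF K Ω₁ M.FA)) M.gen
  set κ₀ := IsScalarTower.toAlgHom K k Ω₂
  set κ₁ := IsScalarTower.toAlgHom K Ω₁ Ω₂
  have hrig := M.rigid (Ω₂ := Ω₂) hx P v₀ v₁ P₀ P₁ h₀ h₁ R₁ η hη (G - M.map κ₀ P₀)
  let q : CDiv Ω₁ Ω₂ →+ CDiv Ω₁ Ω₂ ⧸ TP Ω₁ Ω₂ := QuotientAddGroup.mk' _
  let Φ := q.comp (resCDiv Ω₁ Ω₂ K)
  let Ψ := q.comp ((pullCDiv s).comp (resCDiv Ω₁ (Big K Ω₁ M.FA) K))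
  have hpull : ∀ a : M.Pt Ω₁,
      Ψ (M.ptDiv (M.sumPt (k := K) M.gen a)) = Φ (M.ptDiv (G + M.map κ₁ a)) := fun a => by
    refine QuotientAddGroup.eq_iff_sub_mem.mpr ?_
    show pullCDiv s (resCDiv Ω₁ (Big K Ω₁ M.FA) K (M.ptDiv (M.sumPt (k := K) M.gen a))) -
      resCDiv Ω₁ Ω₂ K (M.ptDiv (G + M.map κ₁ a)) ∈ TP Ω₁ Ω₂
    rw [pullCDiv_resCDiv, ← map_sub]
    refine resCDiv_mem_TP ?_
    have h := M.pullCDiv_ptDiv_sub_mem (s.restrictScalars K) (M.sumPt (k := K) M.gen a)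
    have he : M.map (s.restrictScalars K) (M.sumPt (k := K) M.gen a) = G + M.map κ₁ a := by
      rw [Model.sumPt, map_add, M.map_map, M.map_map]
      congr 2
    rwa [he] at h
  have z : ∀ a : M.Pt Ω₁, Φ (M.ptDiv (M.map κ₁ a)) = 0 := fun a =>
    (QuotientAddGroup.eq_zero_iff _).mpr (M.resCDiv_ptDiv_mem a)
  have hκ : ∀ a : M.Pt k, M.map κ₁ (M.map (IsScalarTower.toAlgHom K k Ω₁) a) = M.map κ₀ a :=
    fun a => by
      rw [M.map_map]
      congr 2
  have lin : ∀ (H : Type u) [AddCommGroup H] (f : H →+ CDiv Ω₁ Ω₂ ⧸ TP Ω₁ Ω₂) (A B C D : H),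
      f (A - B - C + D) = f A - f B - f C + f D := fun H _ f A B C D => by
    simp only [map_add, map_sub]
  refine mem_TP_of_pullCDiv (G := Ω₂) ?_
  refine (QuotientAddGroup.eq_zero_iff _).mp ?_
  show Ψ (M.ptDiv (M.sumPt (k := K) M.gen (η + c)) - M.ptDiv (M.sumPt (k := K) M.gen η) -
    M.ptDiv (M.sumPt (k := K) M.gen c) + M.ptDiv (M.sumPt (k := K) M.gen 0)) = 0
  rw [lin _ Ψ, hpull, hpull, hpull, hpull]
  have hrig' : Φ (M.ptDiv (M.map κ₀ P₁ + (G - M.map κ₀ P₀ + M.map κ₁ η)) -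
        M.ptDiv (M.map κ₀ P₁ + (G - M.map κ₀ P₀)) - M.ptDiv (M.map κ₀ P₁ + M.map κ₁ η) +
        M.ptDiv (M.map κ₀ P₁)) -
      Φ (M.ptDiv (M.map κ₀ P₀ + (G - M.map κ₀ P₀ + M.map κ₁ η)) -
        M.ptDiv (M.map κ₀ P₀ + (G - M.map κ₀ P₀)) - M.ptDiv (M.map κ₀ P₀ + M.map κ₁ η) +
        M.ptDiv (M.map κ₀ P₀)) = 0 := by
    rw [← map_sub]
    refine (QuotientAddGroup.eq_zero_iff _).mpr ?_
    rw [map_sub]
    exact hrig
  have e1 : M.map κ₀ P₁ + (G - M.map κ₀ P₀ + M.map κ₁ η) = G + M.map κ₁ (η + c) := by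
    rw [map_add, hc, hκ, map_sub]; abel
  have e2 : M.map κ₀ P₁ + (G - M.map κ₀ P₀) = G + M.map κ₁ c := by
    rw [hc, hκ, map_sub]; abel
  have e4 : M.map κ₀ P₀ + (G - M.map κ₀ P₀ + M.map κ₁ η) = G + M.map κ₁ η := by abel
  have e5 : M.map κ₀ P₀ + (G - M.map κ₀ P₀) = G + M.map κ₁ 0 := by rw [map_zero]; abel
  rw [e1, e2, e4, e5, lin _ Φ, lin _ Φ, ← hκ P₁, ← hκ P₀, ← map_add, ← map_add, z, z, z, z]
    at hrig'
  linear_combination (norm := abel) hrig'

set_option maxHeartbeats 1000000 in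
/-- The parallelogram relation at all points, for the difference of the two values on the line. -/
theorem parallelogram_const {k : Type u} [Field k] [IsAlgClosed k] [Algebra K k] {F : Type u}
    [Field F] [Algebra k F] [Algebra K F] [IsScalarTower K k F] {x : F}
    (hx : Fermat.Agent.MCurve.IsFinOver k x) (P : M.Pt F) (v₀ v₁ : RatPoint k F x)
    (P₀ P₁ : M.Pt k) (h₀ : M.HasValue v₀ P P₀) (h₁ : M.HasValue v₁ P P₁) (Q : M.Pt k) :
    M.ptDiv (Q + (P₁ - P₀)) + M.ptDiv (Q - (P₁ - P₀)) - 2 • M.ptDiv Q - M.ptDiv (P₁ - P₀) -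
      M.ptDiv (-(P₁ - P₀)) ∈ TP K k := by
  let L₁ := Big K k M.FA
  let Ω₁ := AlgebraicClosure L₁
  let L₂ := Big K Ω₁ M.FA
  let g₁ : M.FA →ₐ[K] Ω₁ := (IsScalarTower.toAlgHom K L₁ Ω₁).comp (incF K k M.FA)
  have hg₁ : Function.Injective
      (Algebra.TensorProduct.lift (Algebra.ofId k Ω₁) g₁ fun _ _ => Commute.all _ _) := by
    have h : ∀ t, Algebra.TensorProduct.lift (Algebra.ofId k Ω₁) g₁ (fun _ _ => Commute.all _ _) t =
        algebraMap L₁ Ω₁ (bigMap K k M.FA t) := fun t => by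
      induction t using TensorProduct.induction_on with
      | zero => simp
      | tmul a b =>
        rw [Algebra.TensorProduct.lift_tmul, bigMap_tmul, map_mul, Algebra.ofId_apply,
          IsScalarTower.algebraMap_apply k L₁ Ω₁, algebraMap_big]
        rfl
      | add a b ha hb => rw [map_add, map_add, map_add, ha, hb]
    intro a b hab
    rw [h, h] at hab
    exact bigMap_injective K k M.FA ((algebraMap L₁ Ω₁).injective hab)
  set η : M.Pt Ω₁ := M.map g₁ M.gen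
  set c : M.Pt Ω₁ := M.map (IsScalarTower.toAlgHom K k Ω₁) (P₁ - P₀) with hc
  obtain ⟨R₁, hR₁⟩ := M.exists_val_generic g₁ hg₁ 0
  letI : Algebra K R₁.Res := ((algebraMap k R₁.Res).comp (algebraMap K k)).toAlgebra
  haveI : IsScalarTower K k R₁.Res := IsScalarTower.of_algebraMap_eq fun _ => rfl
  have hη : M.redK R₁ R₁.res η = 0 := by rw [hR₁, map_zero]
  have hsq : M.squareDiv η c ∈ TP Ω₁ L₂ :=
    M.squareDiv_mem hx P v₀ v₁ P₀ P₁ h₀ h₁ R₁ η hη
  have hpar := M.parallelogram η c hsq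
  obtain ⟨V, hV⟩ := M.exists_val_generic g₁ hg₁ Q
  letI : Algebra K V.Res := ((algebraMap k V.Res).comp (algebraMap K k)).toAlgebra
  haveI : IsScalarTower K k V.Res := IsScalarTower.of_algebraMap_eq fun _ => rfl
  have key := M.specialise V ![η + c, η - c, η, c, -c]
    ![Q + (P₁ - P₀), Q - (P₁ - P₀), Q, P₁ - P₀, -(P₁ - P₀)] ![1, 1, -2, -1, -1]
    (fun t => by
      have hq : M.redK V V.res η = M.map (IsScalarTower.toAlgHom K k V.Res) Q := hV
      have hcc := M.redK_const V (Ω := Ω₁) (P₁ - P₀)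
      generalize P₁ - P₀ = d at hc hcc ⊢
      fin_cases t <;> simp [hq, hc, hcc])
    (by
      convert hpar using 1
      simp [Fin.sum_univ_five, two_nsmul]
      abel)
  convert key using 1
  simp [Fin.sum_univ_five, two_nsmul]
  abel

end Model

set_option maxHeartbeats 1000000 in
/-- The theorem of the cube in the form used here. -/
theorem isQuadratic [IsAlgClosed K] (M : Model K) : M.IsQuadratic := by
  intro n σn hn hσn
  obtain ⟨k, _, _, _, F, _, _, _, _, x, hx, P, v₀, v₁, P₀, P₁, h₀, h₁, σ, hσ, halg⟩ := M.exists_line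
  set c := P₁ - P₀ with hc
  have hpar := M.parallelogram_const hx P v₀ v₁ P₀ P₁ h₀ h₁
  let q : CDiv K k →+ CDiv K k ⧸ TP K k := QuotientAddGroup.mk' (TP K k)
  let N : ℕ → CDiv K k := fun m => M.ptDiv (m • c) + M.ptDiv (-(m • c))
  have h0 : q (M.ptDiv 0) = 0 := (QuotientAddGroup.eq_zero_iff _).mpr (by
    have := M.resCDiv_ptDiv_mem (k := K) (F := k) (0 : M.Pt K)
    rwa [map_zero] at this)
  have hN : ∀ m, q (N m) = (m : ℤ) ^ 2 • q (N 1) := by
    suffices h : ∀ m, q (N m) = (m : ℤ) ^ 2 • q (N 1) ∧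
        q (N (m + 1)) = ((m + 1 : ℕ) : ℤ) ^ 2 • q (N 1) from fun m => (h m).1
    intro m
    induction m with
    | zero => exact ⟨by simp [N, h0], by simp⟩
    | succ m ih =>
      refine ⟨ih.2, ?_⟩
      have r₁ : q (M.ptDiv ((m + 1) • c + c) + M.ptDiv ((m + 1) • c - c) -
          2 • M.ptDiv ((m + 1) • c) - M.ptDiv c - M.ptDiv (-c)) = 0 :=
        (QuotientAddGroup.eq_zero_iff _).mpr (hpar _)
      have r₂ : q (M.ptDiv (-((m + 1) • c) + c) + M.ptDiv (-((m + 1) • c) - c) -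
          2 • M.ptDiv (-((m + 1) • c)) - M.ptDiv c - M.ptDiv (-c)) = 0 :=
        (QuotientAddGroup.eq_zero_iff _).mpr (hpar _)
      have a1 : (m + 1) • c + c = (m + 1 + 1) • c := (succ_nsmul c (m + 1)).symm
      have a2 : (m + 1) • c - c = m • c := by rw [succ_nsmul, add_sub_cancel_right]
      have a3 : -((m + 1) • c) + c = -(m • c) := by rw [← a2]; abel
      have a4 : -((m + 1) • c) - c = -((m + 1 + 1) • c) := by rw [← a1]; abel
      rw [a1, a2] at r₁
      rw [a3, a4] at r₂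
      have i1 := ih.1
      have i2 := ih.2
      simp only [N, map_add, map_sub, map_nsmul, one_nsmul] at r₁ r₂ i1 i2 ⊢
      push_cast at i2 ⊢
      linear_combination (norm := module) r₁ + r₂ + 2 • i2 - i1
  letI : Algebra M.FA k := σ.toRingHom.toAlgebra
  haveI : IsScalarTower K M.FA k := IsScalarTower.of_algebraMap_eq fun a => (σ.commutes a).symm
  haveI : Algebra.IsAlgebraic M.FA k := ⟨fun y => by
    obtain ⟨p, hp, hpy⟩ := halg y
    let e : M.FA ≃ₐ[K] σ.fieldRange := AlgEquiv.ofInjectiveField σ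
    refine ⟨p.map (e.symm : σ.fieldRange →+* M.FA),
      (Polynomial.map_ne_zero_iff (RingHom.injective _)).mpr hp, ?_⟩
    rw [Polynomial.aeval_def, Polynomial.eval₂_map]
    refine Eq.trans ?_ hpy
    rw [Polynomial.aeval_def]
    congr 1
    exact RingHom.ext fun z => congrArg Subtype.val (e.apply_symm_apply z)⟩
  refine mem_TP_of_pullCDiv (G := k) ?_
  change pullCDiv σ _ ∈ TP K k
  rw [← QuotientAddGroup.eq_zero_iff]
  change q (pullCDiv σ _) = 0
  have hp : ∀ τ : M.FA →ₐ[K] M.FA, ∀ m : ℕ, m • M.gen = M.map τ M.gen →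
      q (pullCDiv σ (M.symDiv τ)) = q (N m) := by
    intro τ m hm
    refine QuotientAddGroup.eq_iff_sub_mem.mpr ?_
    have h1 := pullCDiv_mem_TP σ (M.symDiv_sub_ptDiv_mem τ)
    have h2 := add_mem (M.pullCDiv_ptDiv_sub_mem σ (M.map τ M.gen))
      (M.pullCDiv_ptDiv_sub_mem σ (-M.map τ M.gen))
    rw [← hm] at h1 h2
    have hmc : M.map σ (m • M.gen) = m • c := by rw [map_nsmul, ← hσ]
    rw [map_neg, hmc] at h2
    convert add_mem h1 h2 using 1
    simp only [N, map_sub, map_add, hm]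
    abel
  rw [map_sub, map_sub, map_nsmul, map_nsmul, hp σn n hσn,
    hp (AlgHom.id K M.FA) 1 (by rw [one_nsmul, M.map_id]), hN n]
  rw [← natCast_zsmul, Nat.cast_pow, sub_self]

end Fermat.Agent.AbVar
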