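import Fermat.Statements.S26
import Fermat.Agent.AbVar.Model
import Fermat.Agent.AbVar.Scheme.Dim
import Fermat.Agent.AbVar.Scheme.Degree

/-!
# The algebraic model of an abelian scheme over an algebraically closed field
-/

set_option autoImplicit false

noncomputable section

namespace Fermat.Agent.AbVar

open CategoryTheory CategoryTheory.Limits AlgebraicGeometry NeronModelInfra GoodReductionJacobian
open Sch

universe u

/-- An affine chart stable under negation. -/
theorem exists_negStable {K : Type u} [Field K] {A : Scheme.{u}} [AlgebraicGeometry.IsIntegral A]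
    [A.IsSeparated] {f : A ⟶ Spec (CommRingCat.of K)} (L : RelativeGroupLaw K f)
    (hc : L.IsCommutative) : ∃ c : Chart A, c.U ≤ negMap L ⁻¹ᵁ c.U := by
  have hν : IsIso (negMap L) := ⟨negMap L, negMap_negMap L hc, negMap_negMap L hc⟩
  obtain ⟨_, ⟨W, hW, rfl⟩, hηW, -⟩ := A.isBasis_affineOpens.exists_subset_of_mem_open
    (Set.mem_univ (genericPoint A)) isOpen_univ
  have hη : genericPoint A ∈ negMap L ⁻¹ᵁ W := gen_mem_of_mem (x := negMap L (genericPoint A)) (by
    show negMap L (negMap L (genericPoint A)) ∈ W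
    rw [← Scheme.Hom.comp_apply, negMap_negMap L hc]
    exact hηW)
  refine ⟨⟨W ⊓ negMap L ⁻¹ᵁ W, hW.inf (hW.preimage_of_isIso _), ⟨hηW, hη⟩⟩, fun x hx => ⟨hx.2, ?_⟩⟩
  show negMap L (negMap L x) ∈ W
  rw [← Scheme.Hom.comp_apply, negMap_negMap L hc]
  exact hx.1

/-- The algebra endomorphism of a stable chart given by negation. -/
theorem exists_negChart {K : Type u} [Field K] {A : Scheme.{u}} [AlgebraicGeometry.IsIntegral A]
    {f : A ⟶ Spec (CommRingCat.of K)} (L : RelativeGroupLaw K f) (c : Chart A)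
    (hle : c.U ≤ negMap L ⁻¹ᵁ c.U) :
    letI := fieldAlg f
    ∃ ν : chartRing f c →ₐ[K] chartRing f c,
      ∀ (R : Type u) [CommRing R] [Algebra K R] (φ : chartRing f c →ₐ[K] R),
        (algPt f c φ).1 ≫ negMap L = (algPt f c (φ.comp ν)).1 := by
  let := fieldAlg f
  set θ := ((negMap L).appLE c.U c.U hle).hom with hθ
  have key : Spec.map (CommRingCat.ofHom θ) ≫ c.affine.fromSpec =
      c.affine.fromSpec ≫ negMap L := IsAffineOpen.SpecMap_appLE_fromSpec _ _ _ hle
  have hθK : θ.comp (chartHom f c.U) = chartHom f c.U := by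
    refine specMap_ofHom_inj ?_
    rw [← specMap_ofHom_comp]
    show Spec.map (CommRingCat.ofHom θ) ≫ specK (chartHom f c.U) = specK (chartHom f c.U)
    rw [← fromSpec_comp f c.affine, ← Category.assoc, key, Category.assoc, negMap_over]
  let ν : chartRing f c →ₐ[K] chartRing f c :=
    { ((toChart f c).toRingHom.comp θ).comp (toChart f c).symm.toRingHom with
      commutes' := fun k => by
        show toChart f c (θ ((toChart f c).symm (algebraMap K _ k))) = _
        rw [← toChart_chartHom, RingEquiv.symm_apply_apply, ← RingHom.comp_apply, hθK] }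
  refine ⟨ν, fun R _ _ φ => ?_⟩
  show (Spec.map _ ≫ _) ≫ negMap L = Spec.map _ ≫ _
  rw [Category.assoc, ← key, ← Category.assoc, specMap_ofHom_comp]
  congr 3
  ext a
  show φ (toChart f c (θ a)) = φ (toChart f c (θ ((toChart f c).symm (toChart f c a))))
  rw [RingEquiv.symm_apply_apply]

/-- The model of an abelian scheme, with the same torsion. -/
theorem exists_model (K : Type u) [Field K] [IsAlgClosed K] {A : Scheme.{u}}
    (f : A ⟶ Spec (CommRingCat.of K)) (L : RelativeGroupLaw K f) (hc : L.IsCommutative)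
    (hA : AbelianSchemePropertyBundle K f) (g : ℕ) [SmoothOfRelativeDimension g f] :
    ∃ M : Model K, M.g = g ∧ M.HasDegree ∧ ∀ n : ℕ,
      Nat.card {x : SchemeHomOver (𝟙 (Spec (CommRingCat.of K))) f //
        L.IsTorsionPoint (𝟙 (Spec (CommRingCat.of K))) n x} =
        Nat.card {P : M.Pt K // n • P = 0} := by
  have := hA.smooth
  have := hA.proper
  have : ConnectedSpace A := by
    rw [connectedSpace_iff_univ]
    convert hA.connectedFibres (IsLocalRing.closedPoint K)
    exact (Set.eq_univ_of_forall fun _ => Subsingleton.elim (α := PrimeSpectrum K) _ _).symm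
  have : AlgebraicGeometry.IsIntegral A := isIntegral_of_smooth_of_connected f
  have : A.IsSeparated := ⟨by rw [← terminal.comp_from f]; infer_instance⟩
  let := fieldAlg f
  obtain ⟨c₀, hle⟩ := exists_negStable L hc
  obtain ⟨ν, hν⟩ := exists_negChart L c₀ hle
  obtain ⟨s, hs⟩ := chartRing_fg f c₀
  obtain ⟨r, E, hE⟩ := exists_eqCharts f s
  let E' : Fin (r + 1) → EqChart f s :=
    Fin.cons (EqChart.base c₀ fun z hz => hs ▸ Algebra.subset_adjoin hz) E
  obtain ⟨z, hz, hzint⟩ := exists_normalisation f g c₀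
  let red {F k : Type u} [Field F] [Algebra K F] [Field k] [Algebra K k] (V : ValuationSubring F)
      (hV : ∀ c : K, algebraMap K F c ∈ V) (π : V →+* k)
      (hπ : ∀ c : K, π ⟨algebraMap K F c, hV c⟩ = algebraMap K k c) :=
    (exists_red L hc V hV π hπ).choose
  have red_spec {F k : Type u} [Field F] [Algebra K F] [Field k] [Algebra K k]
      (V : ValuationSubring F) (hV : ∀ c : K, algebraMap K F c ∈ V) (π : V →+* k)
      (hπ : ∀ c : K, π ⟨algebraMap K F c, hV c⟩ = algebraMap K k c) :=
    (exists_red L hc V hV π hπ).choose_spec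
  let M : Model K :=
    { FA := A.functionField
      r := r
      O := fun i => chartRing f (E' i).c
      fg := fun i => chartRing_fg f _
      frac := fun i x => chartRing_frac f _ x
      normal := fun i => chartRing_normal f _
      g := g
      z := z
      z_indep := hz
      z_integral := hzint
      h := fun i => (E' i).h
      h_zero := rfl
      h_ne := fun i => (E' i).h_ne
      h_mem := fun i => (E' i).h_mem
      h_unit := fun i j => chartRing_inf f (E' i).c (E' j).c ▸ (E' i).h_div_mem (E' j)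
      h_clear := fun a ha i => (E' i).clear (by rw [hs]; exact ha)
      Pt := fun F _ _ => Pts F f
      ptGroup := fun F _ _ => Pts.group L hc F
      map := fun s => Pts.map L hc s
      map_id := fun P => Pts.ext (by
        rw [Pts.map_hom]
        exact (congrArg (· ≫ P.hom) (Spec.map_id _)).trans (Category.id_comp _))
      map_map := fun s t P => Pts.ext (by
        rw [Pts.map_hom, Pts.map_hom, Pts.map_hom, ← Category.assoc, specMap_ofHom_comp]
        rfl)
      pt := fun i φ => Pts.mk (algPt f (E' i).c φ)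
      map_pt := fun s i φ => Pts.ext (algPt_comp f (E' i).c s φ)
      exists_chart := ?exists_chart
      overlap := ?overlap
      overlap3 := ?overlap3
      glue := ?glue
      red := fun V hV π hπ => red V hV π hπ
      red_pt := ?red_pt
      chart_of_red := ?chart_of_red
      negChart := ν
      neg_pt := fun φ => Pts.ext (by rw [Pts.neg_hom]; exact hν _ φ) }
  case exists_chart =>
    intro F _ _ V hV P
    obtain ⟨m, hm, -⟩ := existsUnique_extend f V (algebraMap K F) hV (Additive.toMul P)
    let := (valHom V (algebraMap K F) hV).toAlgebra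
    obtain ⟨i, hi⟩ : ∃ i, m.1 (IsLocalRing.closedPoint V) ∈ (E' i).c.U := by
      obtain ⟨i, hi⟩ := hE (m.1 (IsLocalRing.closedPoint V))
      exact ⟨i.succ, by simpa [E'] using hi⟩
    obtain ⟨φ, hφ⟩ := exists_algPt f (E' i).c m (range_subset_of_closedPoint_mem m.1 hi)
    let ι : V →ₐ[K] F := { V.subtype with commutes' := fun _ => rfl }
    refine ⟨i, ι.comp φ, fun a => (φ a).2, Pts.ext ?_⟩
    show (algPt f (E' i).c (ι.comp φ)).1 = P.hom
    rw [← algPt_comp, congrArg Subtype.val hφ]
    exact hm
  case overlap =>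
    intro F _ _ i j φ ψ h
    obtain ⟨χ, hχ, hχ'⟩ := exists_inf_hom f (E' i).c (E' j).c φ ψ (congrArg Pts.hom h)
    refine ⟨χ.comp (Subalgebra.inclusion (chartRing_inf f (E' i).c (E' j).c).ge), ?_, ?_⟩
    · rw [← hχ]; rfl
    · rw [← hχ']; rfl
  case overlap3 =>
    intro F _ _ i j l φ ψ θ h h'
    obtain ⟨χ, hχ, hχ'⟩ := exists_inf_hom f (E' i).c (E' j).c φ ψ (congrArg Pts.hom h)
    have h12 : (algPt f ((E' i).c.inf (E' j).c) χ).1 = (algPt f (E' l).c θ).1 := by
      rw [← algPt_mono f ((E' i).c.inf_le_fst (E' j).c) χ, hχ]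
      exact congrArg Pts.hom h'
    obtain ⟨ω, hω, hω'⟩ := exists_inf_hom f _ (E' l).c χ θ h12
    have hge := chartRing_inf f ((E' i).c.inf (E' j).c) (E' l).c
    rw [chartRing_inf f (E' i).c (E' j).c] at hge
    refine ⟨ω.comp (Subalgebra.inclusion hge.ge), ?_, ?_, ?_⟩
    · rw [← hχ, ← hω]; rfl
    · rw [← hχ', ← hω]; rfl
    · rw [← hω']; rfl
  case glue =>
    intro F _ _ i j χ
    refine Pts.ext ?_
    show (algPt f (E' i).c _).1 = (algPt f (E' j).c _).1
    rw [← algPt_comp, ← algPt_comp, algPt_sup]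
  case red_pt =>
    intro F k _ _ _ _ V hV π hπ i φ ψ hφ hψ
    let := (valHom V (algebraMap K F) hV).toAlgebra
    let φV : chartRing f (E' i).c →ₐ[K] V :=
      { φ.toRingHom.codRestrict V hφ with commutes' := fun c => Subtype.ext (φ.commutes c) }
    let ι : V →ₐ[K] F := { V.subtype with commutes' := fun _ => rfl }
    let πA : V →ₐ[K] k := { π with commutes' := hπ }
    refine Pts.ext ?_
    rw [red_spec V hV π hπ (Pts.mk (algPt f (E' i).c φ)) (algPt f (E' i).c φV)]
    · show Spec.map (CommRingCat.ofHom πA.toRingHom) ≫ _ = (algPt f (E' i).c ψ).1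
      rw [algPt_comp, show πA.comp φV = ψ from AlgHom.ext hψ]
    · show Spec.map (CommRingCat.ofHom ι.toRingHom) ≫ _ = (algPt f (E' i).c φ).1
      rw [algPt_comp, show ι.comp φV = φ from AlgHom.ext fun _ => rfl]
  case chart_of_red =>
    intro F k _ _ _ _ V hV π hπ hloc P i ψ h
    obtain ⟨m, hm, -⟩ := existsUnique_extend f V (algebraMap K F) hV (Additive.toMul P)
    let := (valHom V (algebraMap K F) hV).toAlgebra
    have h1 : Spec.map (CommRingCat.ofHom π) ≫ m.1 = (algPt f (E' i).c ψ).1 :=
      (red_spec V hV π hπ P m hm).symm.trans (congrArg Pts.hom h)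
    have hi : m.1 (IsLocalRing.closedPoint V) ∈ (E' i).c.U := by
      have h2 := range_algPt_subset f (E' i).c ψ ⟨IsLocalRing.closedPoint k, rfl⟩
      rw [← h1] at h2
      change m.1 (PrimeSpectrum.comap π (IsLocalRing.closedPoint k)) ∈ (E' i).c.U at h2
      rwa [show PrimeSpectrum.comap π (IsLocalRing.closedPoint k) = IsLocalRing.closedPoint V from
        IsLocalRing.comap_closedPoint π] at h2
    obtain ⟨φ, hφ⟩ := exists_algPt f (E' i).c m (range_subset_of_closedPoint_mem m.1 hi)
    let ι : V →ₐ[K] F := { V.subtype with commutes' := fun _ => rfl }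
    refine ⟨ι.comp φ, fun a => (φ a).2, Pts.ext ?_⟩
    show (algPt f (E' i).c (ι.comp φ)).1 = P.hom
    rw [← algPt_comp, congrArg Subtype.val hφ]
    exact hm
  refine ⟨M, rfl, fun n hn => ?_, fun n => ?_⟩
  · obtain ⟨σ, hσ, hfd, hcard⟩ := exists_degree L hc hA g n hn
    refine ⟨σ, ?_, hfd, hcard⟩
    let := Pts.group L hc A.functionField
    show n • (Pts.mk (algPt f c₀ (chartRing f c₀).val) : Pts A.functionField f) =
      Pts.map L hc σ (Pts.mk (algPt f c₀ (chartRing f c₀).val))
    refine Pts.ext ?_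
    rw [Pts.nsmul_hom, Pts.map_hom]
    show (algPt f c₀ (chartRing f c₀).val).1 ≫ _ = _ ≫ (algPt f c₀ (chartRing f c₀).val).1
    rw [algPt_val, hσ]
  · have hid : specK (algebraMap K K) = 𝟙 (Spec (CommRingCat.of K)) := by
      rw [Algebra.algebraMap_self]; exact Spec.map_id _
    let := ptsGroup L hc (specK (algebraMap K K))
    show _ = Nat.card {P : Additive (SchemeHomOver (specK (algebraMap K K)) f) // n • P = 0}
    rw [← hid]
    refine Nat.card_congr (Equiv.subtypeEquiv Additive.ofMul fun x => ?_)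
    show L.nsmul _ n x = L.one _ ↔ x ^ n = 1
    rw [nsmul_eq_pow L hc]
    rfl

end Fermat.Agent.AbVar
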